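import Mathlib

/-!
# CR-O, part B1 (helper396): counting the non-integral roots of a polynomial (Newton polygon)

`V` a valuation subring of a field `K`, `F ∈ V[X]` such that `F` has `natDegree F` roots in `K`
(e.g. `K` algebraically closed) and the reduction `F̄` of `F` modulo the maximal ideal is nonzero.
Then

  `#{roots of F in K not in V} + natDegree F̄ = natDegree F`     (`newton_count`)

(roots counted with multiplicity), and the integral roots reduce to roots of `F̄`
(`residue_isRoot_of_isRoot`).
-/

set_option autoImplicit false

namespace Fermat.Agent.S59.H396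

open Polynomial

variable {K : Type*} [Field K] (V : ValuationSubring K)

lemma reflect_reflect' {R : Type*} [Semiring R] (N : ℕ) (f : R[X]) :
    reflect N (reflect N f) = f := by
  ext i
  rw [coeff_reflect, coeff_reflect, revAt_invol]

lemma reflect_one_X_sub_C {R : Type*} [Ring R] (t : R) :
    reflect 1 (X - C t : R[X]) = 1 - C t * X := by
  rw [reflect_sub]
  have h1 : reflect 1 (X : R[X]) = 1 := by
    have := reflect_monomial (R := R) 1 1
    rw [pow_one] at this
    rw [this]
    simp [revAt_le]
  have h2 : reflect 1 (C t : R[X]) = C t * X := by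
    rw [reflect_C, pow_one]
  rw [h1, h2]

/-- integral roots reduce to roots of the reduction -/
theorem residue_isRoot_of_isRoot (F : V[X]) (r : V)
    (hr : (F.map (algebraMap V K)).IsRoot (r : K)) :
    (F.map (IsLocalRing.residue V)).IsRoot (IsLocalRing.residue V r) := by
  have h0 : F.eval r = 0 := by
    have h1 : (algebraMap V K) (F.eval r) = 0 := by
      rw [← Polynomial.eval₂_at_apply, Polynomial.eval₂_eq_eval_map]
      exact hr
    exact (map_eq_zero_iff _ (IsFractionRing.injective V K)).mp h1
  rw [Polynomial.IsRoot.def, Polynomial.eval_map, Polynomial.eval₂_at_apply, h0, map_zero]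

/-- division by `1 - t X` for a non-integral root `r = t⁻¹` -/
theorem exists_eq_one_sub_mul (F : V[X]) (hF : F ≠ 0) (r : K) (hrV : r ∉ V)
    (hr : (F.map (algebraMap V K)).IsRoot r) :
    ∃ (t : V) (G : V[X]), (t : K) = r⁻¹ ∧ t ∈ IsLocalRing.maximalIdeal V ∧
      F = (1 - C t * X) * G := by
  have hr0 : r ≠ 0 := fun h => hrV (h ▸ V.zero_mem)
  have hinv : r⁻¹ ∈ V := (V.mem_or_inv_mem r).resolve_left hrV
  set t : V := ⟨r⁻¹, hinv⟩ with ht
  have htm : t ∈ IsLocalRing.maximalIdeal V := by
    rw [IsLocalRing.mem_maximalIdeal, mem_nonunits_iff]
    intro hu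
    have : ((t : K))⁻¹ ∈ V := by
      obtain ⟨u, hu⟩ := hu
      have h1 : ((u⁻¹ : Vˣ) : V) * t = 1 := by rw [← hu]; exact Units.inv_mul u
      have h2 : (((u⁻¹ : Vˣ) : V) : K) * (t : K) = 1 := by exact_mod_cast congrArg Subtype.val h1
      have h3 : (t : K)⁻¹ = (((u⁻¹ : Vˣ) : V) : K) := by
        rw [eq_comm, ← mul_eq_one_iff_eq_inv₀]
        · exact h2
        · intro h0; rw [h0, mul_zero] at h2; exact zero_ne_one h2
      rw [h3]; exact Subtype.property _
    apply hrV
    simpa [ht] using this
  set N := F.natDegree with hN
  -- `t` is a root of the reflected polynomial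
  have hroot : (reflect N F).IsRoot t := by
    have hinj := IsFractionRing.injective V K
    rw [Polynomial.IsRoot.def]
    apply hinj
    rw [map_zero, ← Polynomial.eval₂_at_apply]
    let _ : Invertible r := invertibleOfNonzero hr0
    have e : ((t : V) : K) = ⅟r := by rw [invOf_eq_inv]
    change Polynomial.eval₂ (algebraMap V K) ((t : V) : K) (reflect N F) = 0
    rw [e, eval₂_reflect_eq_zero_iff (algebraMap V K) r N F le_rfl, Polynomial.eval₂_eq_eval_map]
    exact hr
  obtain ⟨H, hH⟩ := (Polynomial.dvd_iff_isRoot).mpr hroot
  have hRne : reflect N F ≠ 0 := by rwa [Ne, reflect_eq_zero_iff]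
  have hH0 : H ≠ 0 := by
    intro h; rw [h, mul_zero] at hH; exact hRne hH
  have hN1 : 1 ≤ N := by
    by_contra hlt
    have hN0 : F.natDegree = 0 := by omega
    obtain ⟨c, hc⟩ := Polynomial.natDegree_eq_zero.mp hN0
    rw [← hc, Polynomial.map_C, Polynomial.IsRoot.def, Polynomial.eval_C] at hr
    have : c = 0 := (map_eq_zero_iff _ (IsFractionRing.injective V K)).mp hr
    rw [this, map_zero] at hc
    exact hF hc.symm
  have hdegH : H.natDegree ≤ N - 1 := by
    have h1 : (reflect N F).natDegree ≤ N := by
      refine natDegree_reflect_le.trans ?_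
      simp [hN]
    have h2 : ((X - C t) * H).natDegree = 1 + H.natDegree := by
      rw [Polynomial.natDegree_mul (Polynomial.X_sub_C_ne_zero t) hH0, Polynomial.natDegree_X_sub_C]
    rw [hH, h2] at h1
    omega
  refine ⟨t, reflect (N - 1) H, rfl, htm, ?_⟩
  have h3 : F = reflect N (reflect N F) := (reflect_reflect' N F).symm
  rw [hH] at h3
  have h4 : N = 1 + (N - 1) := by omega
  rw [h4, reflect_mul (X - C t) H (by rw [Polynomial.natDegree_X_sub_C]) hdegH,
    reflect_one_X_sub_C] at h3
  exact h3

/-- **Newton count.** -/
theorem newton_count [DecidablePred fun r : K => r ∉ V] (F : V[X])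
    (hcard : (F.map (algebraMap V K)).roots.card = F.natDegree)
    (hF : F.map (IsLocalRing.residue V) ≠ 0) :
    ((F.map (algebraMap V K)).roots.filter (fun r => r ∉ V)).card
      + (F.map (IsLocalRing.residue V)).natDegree = F.natDegree := by
  induction hn : F.natDegree using Nat.strong_induction_on generalizing F with
  | _ n ih =>
    have hinj := IsFractionRing.injective V K
    have hF0 : F ≠ 0 := by
      intro h; rw [h, Polynomial.map_zero] at hF; exact hF rfl
    have hf0 : F.map (algebraMap V K) ≠ 0 := by
      rwa [Ne, Polynomial.map_eq_zero_iff hinj]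
    rcases Nat.eq_zero_or_pos n with hn0 | hnpos
    · -- constant polynomial
      subst hn0
      obtain ⟨c, hc⟩ := Polynomial.natDegree_eq_zero.mp hn
      rw [← hc, Polynomial.map_C, Polynomial.map_C, Polynomial.roots_C, Polynomial.natDegree_C]
      simp
    · -- pick a root
      have hcpos : 0 < (F.map (algebraMap V K)).roots.card := by rw [hcard, hn]; exact hnpos
      obtain ⟨r, hr⟩ := Multiset.card_pos_iff_exists_mem.mp hcpos
      have hroot : (F.map (algebraMap V K)).IsRoot r := (Polynomial.mem_roots hf0).mp hr
      by_cases hrV : r ∈ V
      · -- integral root: divide by `X - r`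
        have h0 : F.eval ⟨r, hrV⟩ = 0 := by
          have h1 : (algebraMap V K) (F.eval ⟨r, hrV⟩) = 0 := by
            rw [← Polynomial.eval₂_at_apply, Polynomial.eval₂_eq_eval_map]
            exact hroot
          exact (map_eq_zero_iff _ hinj).mp h1
        obtain ⟨G, hG⟩ := (Polynomial.dvd_iff_isRoot).mpr h0
        have hG0 : G ≠ 0 := by
          intro h; rw [h, mul_zero] at hG; exact hF0 hG
        have hdeg : F.natDegree = 1 + G.natDegree := by
          rw [hG, Polynomial.natDegree_mul (Polynomial.X_sub_C_ne_zero _) hG0,
            Polynomial.natDegree_X_sub_C]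
        have hmapK : F.map (algebraMap V K) = (X - C r) * G.map (algebraMap V K) := by
          rw [hG, Polynomial.map_mul, Polynomial.map_sub, Polynomial.map_X, Polynomial.map_C]
          rfl
        have hmapk : F.map (IsLocalRing.residue V)
            = (X - C (IsLocalRing.residue V ⟨r, hrV⟩)) * G.map (IsLocalRing.residue V) := by
          rw [hG, Polynomial.map_mul, Polynomial.map_sub, Polynomial.map_X, Polynomial.map_C]
        have hGk : G.map (IsLocalRing.residue V) ≠ 0 := by
          intro h; rw [hmapk, h, mul_zero] at hF; exact hF rfl
        have hroots : (F.map (algebraMap V K)).roots = {r} + (G.map (algebraMap V K)).roots := by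
          rw [hmapK, Polynomial.roots_mul (by rw [← hmapK]; exact hf0), Polynomial.roots_X_sub_C]
        have hGcard : (G.map (algebraMap V K)).roots.card = G.natDegree := by
          have := hcard
          rw [hroots, Multiset.card_add, Multiset.card_singleton, hdeg] at this
          omega
        have IH := ih G.natDegree (by omega) G hGcard hGk rfl
        rw [hroots, Multiset.filter_add, Multiset.card_add, hmapk,
          Polynomial.natDegree_mul (Polynomial.X_sub_C_ne_zero _) hGk,
          Polynomial.natDegree_X_sub_C]
        have hfil : Multiset.filter (fun r => r ∉ V) ({r} : Multiset K) = 0 := by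
          rw [Multiset.filter_singleton, if_neg (not_not.mpr hrV)]
          rfl
        rw [hfil, Multiset.card_zero]
        omega
      · -- non-integral root: divide by `1 - r⁻¹ X`
        obtain ⟨t, G, htr, htm, hG⟩ := exists_eq_one_sub_mul V F hF0 r hrV hroot
        have hr0 : r ≠ 0 := fun h => hrV (h ▸ V.zero_mem)
        have ht0 : t ≠ 0 := by
          intro h
          rw [h] at htr
          have : (r⁻¹ : K) = 0 := by rw [← htr]; rfl
          exact hr0 (inv_eq_zero.mp this)
        have hG0 : G ≠ 0 := by
          intro h; rw [h, mul_zero] at hG; exact hF0 hG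
        have hlin : (1 - C t * X : V[X]) = C (-t) * X + C 1 := by
          rw [map_neg, map_one]; ring
        have hlin0 : (1 - C t * X : V[X]) ≠ 0 := by
          intro h
          have := congrArg (fun q => Polynomial.coeff q 0) h
          simp at this
        have hlindeg : (1 - C t * X : V[X]).natDegree = 1 := by
          rw [hlin]
          exact Polynomial.natDegree_linear (neg_ne_zero.mpr ht0)
        have hdeg : F.natDegree = 1 + G.natDegree := by
          rw [hG, Polynomial.natDegree_mul hlin0 hG0, hlindeg]
        have hmapK : F.map (algebraMap V K)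
            = (C (-r⁻¹) * (X - C r)) * G.map (algebraMap V K) := by
          rw [hG, Polynomial.map_mul, Polynomial.map_sub, Polynomial.map_one, Polynomial.map_mul,
            Polynomial.map_X, Polynomial.map_C]
          have : (algebraMap V K) t = r⁻¹ := htr
          rw [this]
          congr 1
          rw [mul_sub, ← C_mul, neg_mul, inv_mul_cancel₀ hr0, map_neg, map_neg, map_one]
          ring
        have hmapk : F.map (IsLocalRing.residue V) = G.map (IsLocalRing.residue V) := by
          rw [hG, Polynomial.map_mul, Polynomial.map_sub, Polynomial.map_one, Polynomial.map_mul,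
            Polynomial.map_X, Polynomial.map_C,
            (IsLocalRing.residue_eq_zero_iff t).mpr htm, map_zero, zero_mul, sub_zero, one_mul]
        have hGk : G.map (IsLocalRing.residue V) ≠ 0 := by rwa [← hmapk]
        have hroots : (F.map (algebraMap V K)).roots = {r} + (G.map (algebraMap V K)).roots := by
          rw [hmapK, Polynomial.roots_mul (by rw [← hmapK]; exact hf0),
            Polynomial.roots_C_mul _ (neg_ne_zero.mpr (inv_ne_zero hr0)),
            Polynomial.roots_X_sub_C]
        have hGcard : (G.map (algebraMap V K)).roots.card = G.natDegree := by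
          have := hcard
          rw [hroots, Multiset.card_add, Multiset.card_singleton, hdeg] at this
          omega
        have IH := ih G.natDegree (by omega) G hGcard hGk rfl
        rw [hroots, Multiset.filter_add, Multiset.card_add, hmapk]
        have hfil : Multiset.filter (fun r => r ∉ V) ({r} : Multiset K) = {r} := by
          rw [Multiset.filter_singleton, if_pos hrV]
        rw [hfil, Multiset.card_singleton]
        omega

end Fermat.Agent.S59.H396
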