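import Mathlib
import Fermat.Agent.S13.H891.LadderDeg

/-!
# CR-O, part A (helper396): the multiplication-by-`n` ladder on a NODAL cubic, in closed form

A Weierstrass cubic with a node at `x = x₀` has `b`-invariants
`b₂ = A - 12 x₀`, `b₄ = 6 x₀² - A x₀`, `b₆ = A x₀² - 4 x₀³`, `b₈ = 3 x₀⁴ - A x₀³`
(`Ψ₂Sq = (x - x₀)² (4 (x - x₀) + A)`, `c₄ = A²`).  Writing `x = x₀ + ξ` and `A = ξ (s - s⁻¹)²`
the ladder `(N_k : D_k)` of `Fermat.Agent.S13.H891` is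

  `D_k ξ (s - s⁻¹)² = ξ^(k²) (s^k - s^(-k))²`,   `N_k = x₀ D_k + ξ^(k²)`

(`lad_nodal`), hence `W_m (s - s⁻¹) = ξ^(2m²+2m) (s^(2m+1) - s^(-(2m+1)))` (`ladW_nodal`).
In characteristic `p`, for `2m+1 = p^j`, this gives the polynomial identity

  `polyW m = A^m (X - x₀)^(2m²+m)`        (`polyW_nodal_char_p`)

i.e. the `p^j`-division polynomial of a nodal cubic in characteristic `p` is a nonzero constant
times a power of `X - x₀`, of degree `(q² - q)/2 < (q² - 1)/2`.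
-/

set_option autoImplicit false

namespace Fermat.Agent.S59.H396

open Polynomial Fermat.Agent.S13.H891

section identities

variable {K : Type*} [Field K]

/-- even step, denominator -/
lemma dblD_nodal (x0 A4 Z D : K) :
    dblD (A4 - 12*x0) (6*x0^2 - A4*x0) (A4*x0^2 - 4*x0^3) (x0*D + Z) D
      = Z^2 * D * (4*Z + A4*D) := by
  simp only [dblD]; ring

/-- even step, numerator -/
lemma dblN_nodal (x0 A4 Z D : K) :
    dblN (6*x0^2 - A4*x0) (A4*x0^2 - 4*x0^3) (3*x0^4 - A4*x0^3) (x0*D + Z) D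
      = x0 * dblD (A4 - 12*x0) (6*x0^2 - A4*x0) (A4*x0^2 - 4*x0^3) (x0*D + Z) D + Z^4 := by
  simp only [dblD, dblN]; ring

/-- odd step, numerator -/
lemma addN_nodal (x0 A4 ξ Z1 Z2 D1 D2 : K) :
    addN (A4 - 12*x0) (6*x0^2 - A4*x0) (A4*x0^2 - 4*x0^3) (x0 + ξ) (x0*D1 + Z1) D1
        (x0*D2 + Z2) D2
      = x0 * addD (x0*D1 + Z1) D1 (x0*D2 + Z2) D2 +
        (2*Z1*Z2*(Z1*D2 + Z2*D1) + A4*Z1*Z2*D1*D2 - ξ*(Z1*D2 - Z2*D1)^2) := by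
  simp only [addN, addD, addS, addW]; ring

lemma addW_nodal (x0 Z1 Z2 D1 D2 : K) :
    addW (x0*D1 + Z1) D1 (x0*D2 + Z2) D2 = Z1*D2 - Z2*D1 := by
  simp only [addW]; ring

end identities

section closedForm

variable {K : Type*} [Field K] (x0 ξ s : K)

/-- **Closed form of the ladder on a nodal cubic.** -/
theorem lad_nodal (hs : s ≠ 0) (hξ : ξ ≠ 0) (hh : s - s⁻¹ ≠ 0) (k : ℕ) (hk : 1 ≤ k) :
    ladD (ξ * (s - s⁻¹)^2 - 12*x0) (6*x0^2 - ξ * (s - s⁻¹)^2*x0)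
        (ξ * (s - s⁻¹)^2*x0^2 - 4*x0^3) (3*x0^4 - ξ * (s - s⁻¹)^2*x0^3) (x0 + ξ) k
        * ξ * (s - s⁻¹)^2 = ξ^(k^2) * (s^k - s⁻¹^k)^2 ∧
    ladN (ξ * (s - s⁻¹)^2 - 12*x0) (6*x0^2 - ξ * (s - s⁻¹)^2*x0)
        (ξ * (s - s⁻¹)^2*x0^2 - 4*x0^3) (3*x0^4 - ξ * (s - s⁻¹)^2*x0^3) (x0 + ξ) k
      = x0 * ladD (ξ * (s - s⁻¹)^2 - 12*x0) (6*x0^2 - ξ * (s - s⁻¹)^2*x0)
        (ξ * (s - s⁻¹)^2*x0^2 - 4*x0^3) (3*x0^4 - ξ * (s - s⁻¹)^2*x0^3) (x0 + ξ) k + ξ^(k^2) := by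
  set A4 : K := ξ * (s - s⁻¹)^2 with hA4
  set t : K := s⁻¹ with ht
  have hst : s * t = 1 := mul_inv_cancel₀ hs
  have hc : ξ * (s - t)^2 ≠ 0 := mul_ne_zero hξ (pow_ne_zero 2 hh)
  clear_value A4 t
  refine ladder_induction (P := fun k =>
    ladD (A4 - 12*x0) (6*x0^2 - A4*x0) (A4*x0^2 - 4*x0^3) (3*x0^4 - A4*x0^3) (x0 + ξ) k
        * ξ * (s - t)^2 = ξ^(k^2) * (s^k - t^k)^2 ∧
    ladN (A4 - 12*x0) (6*x0^2 - A4*x0) (A4*x0^2 - 4*x0^3) (3*x0^4 - A4*x0^3) (x0 + ξ) k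
      = x0 * ladD (A4 - 12*x0) (6*x0^2 - A4*x0) (A4*x0^2 - 4*x0^3) (3*x0^4 - A4*x0^3)
          (x0 + ξ) k + ξ^(k^2)) ?_ ?_ ?_ k hk
  · -- k = 1
    refine ⟨?_, ?_⟩
    · rw [ladD_one]; ring
    · rw [ladN_one, ladD_one]; ring
  · -- doubling
    intro k hk ⟨hD, hN⟩
    have hST : s^k * t^k = 1 := by rw [← mul_pow, hst, one_pow]
    set D := ladD (A4 - 12*x0) (6*x0^2 - A4*x0) (A4*x0^2 - 4*x0^3) (3*x0^4 - A4*x0^3)
      (x0 + ξ) k with hDdef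
    set Z := ξ^(k^2) with hZ
    set S := s^k with hS
    set T := t^k with hT
    have e1 : ξ^((2*k)^2) = Z^4 := by rw [hZ, ← pow_mul]; congr 1; ring
    have e2 : s^(2*k) = S^2 := by rw [hS, ← pow_mul]; congr 1; ring
    have e3 : t^(2*k) = T^2 := by rw [hT, ← pow_mul]; congr 1; ring
    clear_value D Z S T
    have hD2 : ladD (A4 - 12*x0) (6*x0^2 - A4*x0) (A4*x0^2 - 4*x0^3) (3*x0^4 - A4*x0^3)
        (x0 + ξ) (2*k) = Z^2 * D * (4*Z + A4*D) := by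
      rw [ladD_even _ _ _ _ _ k hk, hN, ← hDdef, dblD_nodal]
    refine ⟨?_, ?_⟩
    · rw [hD2, e1, e2, e3]
      have : Z^2 * D * (4*Z + A4*D) * ξ * (s - t)^2
          = Z^2 * (D * ξ * (s - t)^2) * (4*Z + D * ξ * (s - t)^2) := by
        rw [hA4]; ring
      rw [this, hD]
      linear_combination (-4 * Z^4 * (S - T)^2) * hST
    · rw [ladN_even _ _ _ _ _ k hk, ladD_even _ _ _ _ _ k hk, hN, ← hDdef, dblN_nodal, e1]
  · -- addition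
    intro k hk ⟨hD1, hN1⟩ ⟨hD2, hN2⟩
    have hST : s^k * t^k = 1 := by rw [← mul_pow, hst, one_pow]
    set D1 := ladD (A4 - 12*x0) (6*x0^2 - A4*x0) (A4*x0^2 - 4*x0^3) (3*x0^4 - A4*x0^3)
      (x0 + ξ) k with hD1def
    set D2 := ladD (A4 - 12*x0) (6*x0^2 - A4*x0) (A4*x0^2 - 4*x0^3) (3*x0^4 - A4*x0^3)
      (x0 + ξ) (k+1) with hD2def
    set Z := ξ^(k^2) with hZ
    set B := ξ^k with hB
    set S := s^k with hS
    set T := t^k with hT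
    have e1 : ξ^((k+1)^2) = Z * B^2 * ξ := by
      rw [hZ, hB, ← pow_mul, ← pow_add, ← pow_succ]; congr 1; ring
    have e2 : ξ^((2*k+1)^2) = Z^4 * B^4 * ξ := by
      rw [hZ, hB, ← pow_mul, ← pow_mul, ← pow_add, ← pow_succ]; congr 1; ring
    have e3 : s^(k+1) = S * s := pow_succ s k
    have e4 : t^(k+1) = T * t := pow_succ t k
    have e5 : s^(2*k+1) = S^2 * s := by rw [hS, ← pow_mul, ← pow_succ]; congr 1; ring
    have e6 : t^(2*k+1) = T^2 * t := by rw [hT, ← pow_mul, ← pow_succ]; congr 1; ring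
    clear_value D1 D2 Z B S T
    rw [e1, e3, e4] at hD2
    rw [e1] at hN2
    have hW : (Z * D2 - Z * B^2 * ξ * D1) * (ξ * (s - t)^2)
        = Z * (Z * B^2 * ξ) * ((S*s - T*t)^2 - (S - T)^2) := by
      linear_combination Z * hD2 - Z * B^2 * ξ * hD1
    have hWW : ((S*s - T*t)^2 - (S - T)^2) = (S^2 * s - T^2 * t) * (s - t) := by
      linear_combination ((S - T)^2) * hst
    have hDodd : ladD (A4 - 12*x0) (6*x0^2 - A4*x0) (A4*x0^2 - 4*x0^3) (3*x0^4 - A4*x0^3)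
        (x0 + ξ) (2*k+1) = (Z * D2 - Z * B^2 * ξ * D1)^2 := by
      rw [ladD_odd _ _ _ _ _ k hk, hN1, hN2, ← hD1def, ← hD2def, addD, addW_nodal]
    have hgoal1 : (Z * D2 - Z * B^2 * ξ * D1)^2 * ξ * (s - t)^2
        = Z^4 * B^4 * ξ * (S^2 * s - T^2 * t)^2 := by
      apply mul_right_cancel₀ hc
      have := congrArg (fun z => z^2) hW
      simp only [hWW] at this
      linear_combination this
    refine ⟨?_, ?_⟩
    · rw [hDodd, e2, e5, e6]; exact hgoal1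
    · rw [ladN_odd _ _ _ _ _ k hk, ladD_odd _ _ _ _ _ k hk, hN1, hN2, ← hD1def, ← hD2def,
        addN_nodal, e2]
      congr 1
      apply mul_right_cancel₀ (pow_ne_zero 2 hc)
      have h1 : D1 * (ξ * (s - t)^2) = Z * (S - T)^2 := by linear_combination hD1
      have h2 : D2 * (ξ * (s - t)^2) = Z * B^2 * ξ * (S*s - T*t)^2 := by linear_combination hD2
      have key : (2 * (s - t)^2 * ((S*s - T*t)^2 + (S - T)^2)
          + (s - t)^2 * (S - T)^2 * (S*s - T*t)^2 - ((S*s - T*t)^2 - (S - T)^2)^2)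
          = (s - t)^4 := by
        have hT' : T = S⁻¹ := eq_inv_of_mul_eq_one_right hST
        have hS0 : S ≠ 0 := left_ne_zero_of_mul_eq_one hST
        rw [hT', ht]
        field_simp
        ring
      have expand : (2*Z*(Z * B^2 * ξ)*(Z*D2 + (Z * B^2 * ξ)*D1) + A4*Z*(Z * B^2 * ξ)*D1*D2
            - ξ*(Z*D2 - (Z * B^2 * ξ)*D1)^2) * (ξ * (s - t)^2)^2
          = 2*Z*(Z * B^2 * ξ)*(Z*(D2 * (ξ * (s - t)^2)) + (Z * B^2 * ξ)*(D1 * (ξ * (s - t)^2)))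
              * (ξ * (s - t)^2)
            + (ξ * (s - t)^2) * Z*(Z * B^2 * ξ)*(D1 * (ξ * (s - t)^2)) * (D2 * (ξ * (s - t)^2))
            - ξ*(Z*(D2 * (ξ * (s - t)^2)) - (Z * B^2 * ξ)*(D1 * (ξ * (s - t)^2)))^2 := by
        rw [hA4]; ring
      rw [expand, h1, h2]
      linear_combination (Z^4 * B^4 * ξ^3) * key

/-- the `(2m+1)`-division polynomial `W_m = N_m D_{m+1} - N_{m+1} D_m` on a nodal cubic -/
theorem ladW_nodal (hs : s ≠ 0) (hξ : ξ ≠ 0) (hh : s - s⁻¹ ≠ 0) (m : ℕ) (hm : 1 ≤ m) :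
    addW
      (ladN (ξ * (s - s⁻¹)^2 - 12*x0) (6*x0^2 - ξ * (s - s⁻¹)^2*x0)
        (ξ * (s - s⁻¹)^2*x0^2 - 4*x0^3) (3*x0^4 - ξ * (s - s⁻¹)^2*x0^3) (x0 + ξ) m)
      (ladD (ξ * (s - s⁻¹)^2 - 12*x0) (6*x0^2 - ξ * (s - s⁻¹)^2*x0)
        (ξ * (s - s⁻¹)^2*x0^2 - 4*x0^3) (3*x0^4 - ξ * (s - s⁻¹)^2*x0^3) (x0 + ξ) m)
      (ladN (ξ * (s - s⁻¹)^2 - 12*x0) (6*x0^2 - ξ * (s - s⁻¹)^2*x0)
        (ξ * (s - s⁻¹)^2*x0^2 - 4*x0^3) (3*x0^4 - ξ * (s - s⁻¹)^2*x0^3) (x0 + ξ) (m+1))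
      (ladD (ξ * (s - s⁻¹)^2 - 12*x0) (6*x0^2 - ξ * (s - s⁻¹)^2*x0)
        (ξ * (s - s⁻¹)^2*x0^2 - 4*x0^3) (3*x0^4 - ξ * (s - s⁻¹)^2*x0^3) (x0 + ξ) (m+1))
      * (s - s⁻¹) = ξ^(2*m^2 + 2*m) * (s^(2*m+1) - s⁻¹^(2*m+1)) := by
  obtain ⟨hD1, hN1⟩ := lad_nodal x0 ξ s hs hξ hh m hm
  obtain ⟨hD2, hN2⟩ := lad_nodal x0 ξ s hs hξ hh (m+1) (by omega)
  rw [hN1, hN2, addW_nodal]
  set D1 := ladD (ξ * (s - s⁻¹)^2 - 12*x0) (6*x0^2 - ξ * (s - s⁻¹)^2*x0)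
        (ξ * (s - s⁻¹)^2*x0^2 - 4*x0^3) (3*x0^4 - ξ * (s - s⁻¹)^2*x0^3) (x0 + ξ) m
  set D2 := ladD (ξ * (s - s⁻¹)^2 - 12*x0) (6*x0^2 - ξ * (s - s⁻¹)^2*x0)
        (ξ * (s - s⁻¹)^2*x0^2 - 4*x0^3) (3*x0^4 - ξ * (s - s⁻¹)^2*x0^3) (x0 + ξ) (m+1)
  set t : K := s⁻¹ with ht
  have hst : s * t = 1 := mul_inv_cancel₀ hs
  have hST : s^m * t^m = 1 := by rw [← mul_pow, hst, one_pow]
  have e1 : ξ^((m+1)^2) = ξ^(m^2) * (ξ^m)^2 * ξ := by
    rw [← pow_mul, ← pow_add, ← pow_succ]; congr 1; ring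
  have e2 : ξ^(2*m^2 + 2*m) = (ξ^(m^2))^2 * (ξ^m)^2 := by
    rw [← pow_mul, ← pow_mul, ← pow_add]; congr 1; ring
  have e3 : s^(m+1) = s^m * s := pow_succ s m
  have e4 : t^(m+1) = t^m * t := pow_succ t m
  have e5 : s^(2*m+1) = (s^m)^2 * s := by rw [← pow_mul, ← pow_succ]; congr 1; ring
  have e6 : t^(2*m+1) = (t^m)^2 * t := by rw [← pow_mul, ← pow_succ]; congr 1; ring
  rw [e1, e3, e4] at hD2
  rw [e1, e2, e5, e6]
  generalize ξ^(m^2) = Z at *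
  generalize ξ^m = B at *
  generalize s^m = S at *
  generalize t^m = T at *
  clear_value D1 D2 t
  have hc : ξ * (s - t) ≠ 0 := mul_ne_zero hξ hh
  apply mul_right_cancel₀ hc
  linear_combination Z * hD2 - Z * B^2 * ξ * hD1 + (Z^2 * B^2 * ξ * (S - T)^2) * hst

end closedForm

section charP

variable {K : Type*} [Field K] (p : ℕ) [Fact p.Prime] [CharP K p]

/-- In characteristic `p`, for `2m+1 = p^j`: `W_m(x₀ + ξ) = A^m ξ^(2m²+m)` on a nodal cubic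
(`A = ξ (s - s⁻¹)²`). -/
theorem eval_polyW_nodal_aux (x0 ξ s : K) (hs : s ≠ 0) (hξ : ξ ≠ 0) (hh : s - s⁻¹ ≠ 0)
    (j m : ℕ) (hm : 1 ≤ m) (hq : 2*m+1 = p^j) :
    (polyW (ξ * (s - s⁻¹)^2 - 12*x0) (6*x0^2 - ξ * (s - s⁻¹)^2*x0)
        (ξ * (s - s⁻¹)^2*x0^2 - 4*x0^3) (3*x0^4 - ξ * (s - s⁻¹)^2*x0^3) m).eval (x0 + ξ)
      = (ξ * (s - s⁻¹)^2)^m * ξ^(2*m^2 + m) := by
  rw [eval_polyW]
  have h := ladW_nodal x0 ξ s hs hξ hh m hm
  have hpow : s^(2*m+1) - s⁻¹^(2*m+1) = (s - s⁻¹)^(2*m+1) := by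
    rw [hq, sub_pow_char_pow]
  rw [hpow] at h
  apply mul_right_cancel₀ hh
  rw [h]
  have e1 : ξ^(2*m^2 + 2*m) = ξ^(2*m^2 + m) * ξ^m := by rw [← pow_add]; congr 1; ring
  have e2 : (s - s⁻¹)^(2*m+1) = ((s - s⁻¹)^2)^m * (s - s⁻¹) := by
    rw [← pow_mul, ← pow_succ]
  rw [e1, e2, mul_pow]
  ring

variable [IsAlgClosed K]

/-- **The `p^j`-division polynomial of a nodal cubic in characteristic `p`.** -/
theorem polyW_nodal_char_p (x0 A4 : K) (hA : A4 ≠ 0) (j m : ℕ) (hm : 1 ≤ m)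
    (hq : 2*m+1 = p^j) :
    polyW (A4 - 12*x0) (6*x0^2 - A4*x0) (A4*x0^2 - 4*x0^3) (3*x0^4 - A4*x0^3) m
      = C (A4^m) * (X - C x0)^(2*m^2 + m) := by
  apply Polynomial.eq_of_infinite_eval_eq
  apply Set.Infinite.mono (s := {x : K | x ≠ x0})
  · intro x (hx : x ≠ x0)
    have hξ : x - x0 ≠ 0 := sub_ne_zero.mpr hx
    -- choose `h` with `h² = A4 / ξ` and `s` with `s - s⁻¹ = h`
    obtain ⟨h, hh2⟩ := IsAlgClosed.exists_pow_nat_eq (A4 / (x - x0)) (n := 2) (by norm_num)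
    have hh0 : h ≠ 0 := by
      intro h0
      rw [h0, zero_pow (by norm_num)] at hh2
      exact (div_ne_zero hA hξ) hh2.symm
    obtain ⟨s, hsroot⟩ := IsAlgClosed.exists_root (X^2 - C h * X - 1 : K[X]) (by
      have : (X^2 - C h * X - 1 : K[X]).natDegree = 2 := by
        compute_degree!
      rw [Polynomial.degree_eq_natDegree (by
        intro h0
        rw [h0] at this
        simp at this), this]
      norm_num)
    have hs2 : s^2 - h * s - 1 = 0 := by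
      simpa [Polynomial.IsRoot] using hsroot
    have hs0 : s ≠ 0 := by
      intro h0
      rw [h0] at hs2
      norm_num at hs2
    have hsh : s - s⁻¹ = h := by
      field_simp
      linear_combination hs2
    have hA4 : (x - x0) * (s - s⁻¹)^2 = A4 := by
      rw [hsh, hh2]
      field_simp
    have key := eval_polyW_nodal_aux p x0 (x - x0) s hs0 hξ (by rw [hsh]; exact hh0) j m hm hq
    rw [hA4] at key
    have hx' : x0 + (x - x0) = x := by ring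
    rw [hx'] at key
    change (polyW (A4 - 12*x0) (6*x0^2 - A4*x0) (A4*x0^2 - 4*x0^3) (3*x0^4 - A4*x0^3) m).eval x
      = (C (A4^m) * (X - C x0)^(2*m^2 + m)).eval x
    rw [key]
    simp
  · have : {x : K | x ≠ x0} = ({x0} : Set K)ᶜ := by
      ext x; simp
    rw [this]
    exact (Set.finite_singleton x0).infinite_compl

end charP

end Fermat.Agent.S59.H396
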