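import Mathlib
import Fermat.Agent.S59.H396.NodalLadder

/-!
# CR-O, part A' (helper396): every Weierstrass cubic with `Δ = 0`, `c₄ ≠ 0` is nodal in the
sense of `NodalLadder`, and its `p^j`-division polynomial in characteristic `p`

* `exists_nodal_params` : `Δ = 0`, `c₄ ≠ 0`, `2 ≠ 0` ⟹ `b₂ = A - 12 x₀`, `b₄ = 6 x₀² - A x₀`,
  `b₆ = A x₀² - 4 x₀³`, `b₈ = 3 x₀⁴ - A x₀³` with `x₀ = (18 b₆ - b₂ b₄)/c₄`, `A = -c₆/c₄`, `A² = c₄`.
* `polyW_of_nodal` : over ANY field of characteristic `p ≠ 2`, for `2m+1 = p^j`, `m ≥ 1`: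
  `polyW b₂ b₄ b₆ b₈ m = C (A^m) * (X - C x₀)^(2m²+m)`.
-/

set_option autoImplicit false

namespace Fermat.Agent.S59.H396

open Polynomial Fermat.Agent.S13.H891

variable {k : Type*} [Field k]

/-- the `x`-coordinate of the node -/
noncomputable def nodeX (W : WeierstrassCurve k) : k := (18 * W.b₆ - W.b₂ * W.b₄) / W.c₄

/-- the slope parameter `A = 4 (x₀ - x₁)` of the node (`A² = c₄`) -/
noncomputable def nodeA (W : WeierstrassCurve k) : k := W.b₂ + 12 * nodeX W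

theorem nodal_params (W : WeierstrassCurve k) (h2 : (2 : k) ≠ 0) (hΔ : W.Δ = 0)
    (hc4 : W.c₄ ≠ 0) :
    nodeA W ^ 2 = W.c₄ ∧ W.b₂ = nodeA W - 12 * nodeX W ∧
      W.b₄ = 6 * nodeX W ^ 2 - nodeA W * nodeX W ∧
      W.b₆ = nodeA W * nodeX W ^ 2 - 4 * nodeX W ^ 3 ∧
      W.b₈ = 3 * nodeX W ^ 4 - nodeA W * nodeX W ^ 3 := by
  have h4 : (4 : k) ≠ 0 := by
    have : (4 : k) = 2 * 2 := by norm_num
    rw [this]; exact mul_ne_zero h2 h2
  have hrel := W.b_relation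
  have hΔ' : -W.b₂ ^ 2 * W.b₈ - 8 * W.b₄ ^ 3 - 27 * W.b₆ ^ 2 + 9 * W.b₂ * W.b₄ * W.b₆ = 0 := by
    rw [← hΔ, WeierstrassCurve.Δ]
  have hc4def : W.c₄ = W.b₂ ^ 2 - 24 * W.b₄ := by rw [WeierstrassCurve.c₄]
  -- `4Δ` in terms of `b₂, b₄, b₆`
  have hD4 : -(W.b₂ ^ 2) * (W.b₂ * W.b₆ - W.b₄ ^ 2) - 32 * W.b₄ ^ 3 - 108 * W.b₆ ^ 2
      + 36 * W.b₂ * W.b₄ * W.b₆ = 0 := by
    linear_combination 4 * hΔ' + W.b₂ ^ 2 * hrel
  set c := W.c₄ with hc
  set N := 18 * W.b₆ - W.b₂ * W.b₄ with hN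
  have hx : nodeX W = N / c := rfl
  have hA : nodeA W = W.b₂ + 12 * (N / c) := rfl
  have e1 : 6 * N ^ 2 + W.b₂ * N * c + W.b₄ * c ^ 2 = 0 := by
    rw [hN, hc4def]
    linear_combination (-18 : k) * hD4
  have e2 : W.b₆ * c ^ 3 - W.b₂ * N ^ 2 * c - 8 * N ^ 3 = 0 := by
    rw [hN, hc4def]
    linear_combination (432 * W.b₆ - W.b₂ ^ 3) * hD4
  have e3 : (W.b₂ * c + 12 * N) ^ 2 - c ^ 3 = 0 := by
    rw [hN, hc4def]
    linear_combination (-432 : k) * hD4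
  have hb4 : W.b₄ = 6 * nodeX W ^ 2 - nodeA W * nodeX W := by
    rw [hA, hx]
    field_simp
    linear_combination e1
  have hb6 : W.b₆ = nodeA W * nodeX W ^ 2 - 4 * nodeX W ^ 3 := by
    rw [hA, hx]
    field_simp
    linear_combination e2
  refine ⟨?_, ?_, hb4, hb6, ?_⟩
  · rw [hA]
    field_simp
    linear_combination e3
  · rw [hA, hx]; ring
  · have hb2 : W.b₂ = nodeA W - 12 * nodeX W := by rw [hA, hx]; ring
    apply mul_left_cancel₀ h4
    rw [hrel]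
    conv_lhs => rw [hb2, hb4, hb6]
    ring

/-- **The `p^j`-division polynomial of a nodal cubic over any field of characteristic `p`.** -/
theorem polyW_of_nodal (p : ℕ) [Fact p.Prime] [CharP k p] (W : WeierstrassCurve k)
    (h2 : (2 : k) ≠ 0) (hΔ : W.Δ = 0) (hc4 : W.c₄ ≠ 0) (j m : ℕ) (hm : 1 ≤ m)
    (hq : 2 * m + 1 = p ^ j) :
    polyW W.b₂ W.b₄ W.b₆ W.b₈ m = C (nodeA W ^ m) * (X - C (nodeX W)) ^ (2 * m ^ 2 + m) := by
  obtain ⟨hA2, hb2, hb4, hb6, hb8⟩ := nodal_params W h2 hΔ hc4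
  have hA0 : nodeA W ≠ 0 := by
    intro h0
    rw [h0, zero_pow (by norm_num)] at hA2
    exact hc4 hA2.symm
  -- pass to the algebraic closure
  let φ : k →+* AlgebraicClosure k := algebraMap k (AlgebraicClosure k)
  have hinj : Function.Injective (Polynomial.map φ) :=
    Polynomial.map_injective φ (algebraMap k (AlgebraicClosure k)).injective
  apply hinj
  have : CharP (AlgebraicClosure k) p := charP_of_injective_algebraMap
    (algebraMap k (AlgebraicClosure k)).injective p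
  rw [map_polyW]
  have key := polyW_nodal_char_p (K := AlgebraicClosure k) p (φ (nodeX W)) (φ (nodeA W))
    (by rwa [Ne, map_eq_zero]) j m hm hq
  have e2 : φ W.b₂ = φ (nodeA W) - 12 * φ (nodeX W) := by
    conv_lhs => rw [hb2]
    simp only [map_sub, map_mul, map_pow, map_ofNat]
  have e4 : φ W.b₄ = 6 * φ (nodeX W) ^ 2 - φ (nodeA W) * φ (nodeX W) := by
    conv_lhs => rw [hb4]
    simp only [map_sub, map_mul, map_pow, map_ofNat]
  have e6 : φ W.b₆ = φ (nodeA W) * φ (nodeX W) ^ 2 - 4 * φ (nodeX W) ^ 3 := by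
    conv_lhs => rw [hb6]
    simp only [map_sub, map_mul, map_pow, map_ofNat]
  have e8 : φ W.b₈ = 3 * φ (nodeX W) ^ 4 - φ (nodeA W) * φ (nodeX W) ^ 3 := by
    conv_lhs => rw [hb8]
    simp only [map_sub, map_mul, map_pow, map_ofNat]
  rw [e2, e4, e6, e8, key]
  simp [Polynomial.map_pow]

end Fermat.Agent.S59.H396
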