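import Mathlib
import Fermat.Agent.S59.H127.CardTorsion
import Fermat.Agent.S13.H891.Torsion
import Fermat.Agent.S05.SameRed
import Fermat.Agent.S59.H396.NodalParams
import Fermat.Agent.S59.H396.NewtonCount

/-!
# CR-O, part B3 (helper396): the `p`-power torsion in the kernel of reduction, multiplicative case

`K` algebraically closed of characteristic `0`, `V ⊂ K` a valuation subring of residue
characteristic `p ≠ 2`, `W₀` a Weierstrass curve over `V` with `Δ ≠ 0`, `Δ ∈ 𝔪`, `c₄ ∈ Vˣ`
(multiplicative reduction), `E = W₀ ⊗ K`.  For `q = p^j`: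

* `ncard_torsion_inKer` : exactly `q` points of `E[q]` lie in the kernel of reduction
  `E₁ = {0} ∪ {x ∉ V}`  (the formal group has height one);
* `residue_xc_of_torsion` : every other point of `E[q]` reduces to the node: `x̄(T) = x̄₀`.
-/

set_option autoImplicit false
set_option linter.unusedSectionVars false
set_option linter.style.haveILetI false

namespace Fermat.Agent.S59.H396

open Polynomial WeierstrassCurve WeierstrassCurve.Affine
open Fermat.Agent.S13.H891
open Fermat.Agent.S51.Five (xc xc_some pointsOver card_pointsOver_le mem_pointsOver)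
open Fermat.Agent.S59.H127 (finite_torsion card_torsion_eq mem_torsionBy_natCast_iff)
open Fermat.Agent.S05.SameRed (InKer)

variable {K : Type*} [Field K] [DecidableEq K]
  (V : ValuationSubring K) (W₀ : WeierstrassCurve V)

/-- the curve over `K` -/
abbrev curveK : WeierstrassCurve.Affine K := W₀.map (algebraMap V K)

/-- the reduced curve -/
abbrev curveRes : WeierstrassCurve (IsLocalRing.ResidueField V) :=
  W₀.map (IsLocalRing.residue V)

/-- the division polynomial `W_m` over `V` -/
noncomputable abbrev polyWV (m : ℕ) : V[X] := polyW W₀.b₂ W₀.b₄ W₀.b₆ W₀.b₈ m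

lemma map_polyWV_K (m : ℕ) :
    (polyWV V W₀ m).map (algebraMap V K)
      = polyW (curveK V W₀).b₂ (curveK V W₀).b₄ (curveK V W₀).b₆ (curveK V W₀).b₈ m := by
  rw [polyWV, map_polyW]
  simp only [curveK, WeierstrassCurve.map_b₂, WeierstrassCurve.map_b₄, WeierstrassCurve.map_b₆,
    WeierstrassCurve.map_b₈]

lemma map_polyWV_res (m : ℕ) :
    (polyWV V W₀ m).map (IsLocalRing.residue V)
      = polyW (curveRes V W₀).b₂ (curveRes V W₀).b₄ (curveRes V W₀).b₆ (curveRes V W₀).b₈ m := by
  rw [polyWV, map_polyW]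
  simp only [curveRes, WeierstrassCurve.map_b₂, WeierstrassCurve.map_b₄, WeierstrassCurve.map_b₆,
    WeierstrassCurve.map_b₈]

section reduction

variable (p : ℕ) [hp : Fact p.Prime]

include hp in
lemma charP_residue (hpV : (p : V) ∈ IsLocalRing.maximalIdeal V) :
    CharP (IsLocalRing.ResidueField V) p := by
  rw [CharP.charP_iff_prime_eq_zero hp.out]
  have := (IsLocalRing.residue_eq_zero_iff (p : V)).mpr hpV
  rwa [map_natCast] at this

include hp in
lemma two_ne_zero_residue (hp2 : p ≠ 2) (hpV : (p : V) ∈ IsLocalRing.maximalIdeal V) :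
    (2 : IsLocalRing.ResidueField V) ≠ 0 := by
  haveI := charP_residue V p hpV
  intro h
  have h2 : ((2 : ℕ) : IsLocalRing.ResidueField V) = 0 := by exact_mod_cast h
  rw [CharP.cast_eq_zero_iff (IsLocalRing.ResidueField V) p 2] at h2
  exact hp2 ((Nat.prime_dvd_prime_iff_eq hp.out Nat.prime_two).mp h2)

variable (hp2 : p ≠ 2) (hpV : (p : V) ∈ IsLocalRing.maximalIdeal V)
  (hΔ : W₀.Δ ∈ IsLocalRing.maximalIdeal V) (hc4 : W₀.c₄ ∉ IsLocalRing.maximalIdeal V)

include hp hp2 hpV hΔ hc4

/-- the reduction of the `p^j`-division polynomial -/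
theorem polyWV_res_eq (j m : ℕ) (hm : 1 ≤ m) (hq : 2 * m + 1 = p ^ j) :
    (polyWV V W₀ m).map (IsLocalRing.residue V)
      = C (nodeA (curveRes V W₀) ^ m) * (X - C (nodeX (curveRes V W₀))) ^ (2 * m ^ 2 + m) := by
  haveI := charP_residue V p hpV
  rw [map_polyWV_res]
  refine polyW_of_nodal p (curveRes V W₀) (two_ne_zero_residue V p hp2 hpV) ?_ ?_ j m hm hq
  · rw [curveRes, WeierstrassCurve.map_Δ]
    exact (IsLocalRing.residue_eq_zero_iff _).mpr hΔ
  · rw [curveRes, WeierstrassCurve.map_c₄]
    exact fun h => hc4 ((IsLocalRing.residue_eq_zero_iff _).mp h)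

lemma nodeA_ne_zero : nodeA (curveRes V W₀) ≠ 0 := by
  have h := (nodal_params (curveRes V W₀) (two_ne_zero_residue V p hp2 hpV)
    (by rw [curveRes, WeierstrassCurve.map_Δ]; exact (IsLocalRing.residue_eq_zero_iff _).mpr hΔ)
    (by rw [curveRes, WeierstrassCurve.map_c₄]
        exact fun h => hc4 ((IsLocalRing.residue_eq_zero_iff _).mp h))).1
  intro h0
  rw [h0, zero_pow (by norm_num), curveRes, WeierstrassCurve.map_c₄] at h
  exact hc4 ((IsLocalRing.residue_eq_zero_iff _).mp h.symm)

theorem natDegree_polyWV_res (j m : ℕ) (hm : 1 ≤ m) (hq : 2 * m + 1 = p ^ j) :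
    ((polyWV V W₀ m).map (IsLocalRing.residue V)).natDegree = 2 * m ^ 2 + m := by
  rw [polyWV_res_eq V W₀ p hp2 hpV hΔ hc4 j m hm hq,
    Polynomial.natDegree_C_mul (pow_ne_zero m (nodeA_ne_zero V W₀ p hp2 hpV hΔ hc4)),
    Polynomial.natDegree_pow, Polynomial.natDegree_X_sub_C, mul_one]

theorem polyWV_res_ne_zero (j m : ℕ) (hm : 1 ≤ m) (hq : 2 * m + 1 = p ^ j) :
    (polyWV V W₀ m).map (IsLocalRing.residue V) ≠ 0 := by
  rw [polyWV_res_eq V W₀ p hp2 hpV hΔ hc4 j m hm hq]
  have hA := pow_ne_zero m (nodeA_ne_zero V W₀ p hp2 hpV hΔ hc4)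
  exact mul_ne_zero (by rwa [Ne, C_eq_zero]) (pow_ne_zero _ (Polynomial.X_sub_C_ne_zero _))

end reduction

section count

variable [IsAlgClosed K] [CharZero K] [hE : (curveK V W₀).IsElliptic]
variable (p : ℕ) [hp : Fact p.Prime]
variable (hp2 : p ≠ 2) (hpV : (p : V) ∈ IsLocalRing.maximalIdeal V)
  (hΔ : W₀.Δ ∈ IsLocalRing.maximalIdeal V) (hc4 : W₀.c₄ ∉ IsLocalRing.maximalIdeal V)

lemma natDegree_polyWV (m : ℕ) (hm : 1 ≤ m) : (polyWV V W₀ m).natDegree = 2 * m ^ 2 + 2 * m := by
  rw [← Polynomial.natDegree_map_eq_of_injective (IsFractionRing.injective V K), map_polyWV_K]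
  exact natDegree_polyW (curveK V W₀) m hm (Nat.cast_ne_zero.mpr (by omega))

lemma card_roots_polyWV (m : ℕ) (hm : 1 ≤ m) :
    ((polyWV V W₀ m).map (algebraMap V K)).roots.card = 2 * m ^ 2 + 2 * m := by
  rw [IsAlgClosed.card_roots_eq_natDegree,
    Polynomial.natDegree_map_eq_of_injective (IsFractionRing.injective V K),
    natDegree_polyWV V W₀ m hm]

include hp hp2 hpV hΔ hc4

open scoped Classical in
/-- the number of non-integral / integral roots of the `p^j`-division polynomial -/
theorem card_filter_roots (j m : ℕ) (hm : 1 ≤ m) (hq : 2 * m + 1 = p ^ j) :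
    (((polyWV V W₀ m).map (algebraMap V K)).roots.filter (fun r => r ∉ V)).card = m ∧
    (((polyWV V W₀ m).map (algebraMap V K)).roots.filter (fun r => r ∈ V)).card
      = 2 * m ^ 2 + m := by
  have h1 := newton_count V (polyWV V W₀ m)
    (by rw [card_roots_polyWV V W₀ m hm, natDegree_polyWV V W₀ m hm])
    (polyWV_res_ne_zero V W₀ p hp2 hpV hΔ hc4 j m hm hq)
  rw [natDegree_polyWV_res V W₀ p hp2 hpV hΔ hc4 j m hm hq, natDegree_polyWV V W₀ m hm] at h1
  have h2 := congrArg Multiset.card
    (Multiset.filter_add_not (fun r => r ∈ V) ((polyWV V W₀ m).map (algebraMap V K)).roots)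
  rw [Multiset.card_add, card_roots_polyWV V W₀ m hm] at h2
  constructor
  · omega
  · omega

/-- **`E[p^j]` meets the kernel of reduction in exactly `p^j` points.** -/
theorem ncard_torsion_inKer (j : ℕ) :
    Set.ncard {T : (curveK V W₀).Point |
      p ^ j • T = 0 ∧ InKer (curveK V W₀) V.valuation T} = p ^ j := by
  classical
  rcases Nat.eq_zero_or_pos j with rfl | hj
  · have : {T : (curveK V W₀).Point | p ^ 0 • T = 0 ∧ InKer (curveK V W₀) V.valuation T}
        = {0} := by
      ext T
      simp only [pow_zero, one_smul, Set.mem_setOf_eq, Set.mem_singleton_iff]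
      constructor
      · exact fun h => h.1
      · rintro rfl; exact ⟨rfl, trivial⟩
    rw [this, Set.ncard_singleton, pow_zero]
  -- `q = p^j = 2m+1`
  have hpodd : Odd p := hp.out.odd_of_ne_two hp2
  have hqodd : Odd (p ^ j) := hpodd.pow
  obtain ⟨m, hqm⟩ := hqodd
  have hq : 2 * m + 1 = p ^ j := hqm.symm
  have hm : 1 ≤ m := by
    by_contra hlt
    have hm0 : m = 0 := by omega
    rw [hm0] at hq
    have : 2 ≤ p ^ j := le_trans hp.out.two_le (Nat.le_self_pow hj.ne' p)
    omega
  set E := curveK V W₀ with hEdef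
  set f := (polyWV V W₀ m).map (algebraMap V K) with hf
  have hfE : f = polyW E.b₂ E.b₄ E.b₆ E.b₈ m := map_polyWV_K V W₀ m
  have hf0 : f ≠ 0 := by
    rw [hfE]; exact polyW_ne_zero E m hm (Nat.cast_ne_zero.mpr (by omega))
  obtain ⟨hout, hin⟩ := card_filter_roots V W₀ p hp2 hpV hΔ hc4 j m hm hq
  -- the torsion
  have hq1 : 1 ≤ p ^ j := Nat.one_le_pow _ _ hp.out.pos
  haveI := finite_torsion E (p ^ j) hq1
  have hfin : {T : E.Point | p ^ j • T = 0}.Finite := by
    have h1 : {T : E.Point | p ^ j • T = 0}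
        = ((Submodule.torsionBy ℤ E.Point ((p ^ j : ℕ) : ℤ) : Submodule ℤ E.Point) :
            Set E.Point) := by
      ext T; exact mem_torsionBy_natCast_iff.symm
    rw [h1]; exact Set.toFinite _
  have hcardA : hfin.toFinset.card = (p ^ j) ^ 2 := by
    rw [← card_torsion_eq E (p ^ j), ← Set.ncard_eq_toFinset_card _ hfin,
      ← Nat.card_coe_set_eq]
    apply Nat.card_congr
    exact Equiv.subtypeEquivRight fun T => mem_torsionBy_natCast_iff.symm
  set A := hfin.toFinset with hA
  have hroot : ∀ T ∈ A, T ≠ 0 → xc T ∈ f.roots.toFinset := by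
    intro T hT hT0
    rw [hA, Set.Finite.mem_toFinset] at hT
    rw [Multiset.mem_toFinset, Polynomial.mem_roots hf0, Polynomial.IsRoot.def, hfE]
    have hT' : (2 * m + 1) • T = 0 := by rw [hq]; exact hT
    exact (torsion_iff_root hT0 m).mp hT'
  set Aout := A.filter (fun T => T ≠ 0 ∧ xc T ∉ V) with hAout
  set Ain := A.filter (fun T => T ≠ 0 ∧ xc T ∈ V) with hAin
  have hbout : Aout.card ≤ 2 * m := by
    have hsub : Aout ⊆ pointsOver E (f.roots.toFinset.filter (fun r => r ∉ V)) := by
      intro T hT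
      rw [hAout, Finset.mem_filter] at hT
      exact mem_pointsOver hT.2.1 (Finset.mem_filter.mpr ⟨hroot T hT.1 hT.2.1, hT.2.2⟩)
    calc Aout.card ≤ (pointsOver E (f.roots.toFinset.filter (fun r => r ∉ V))).card :=
          Finset.card_le_card hsub
      _ ≤ (f.roots.toFinset.filter (fun r => r ∉ V)).card * 2 := card_pointsOver_le E _
      _ ≤ (f.roots.filter (fun r => r ∉ V)).card * 2 := by
          apply Nat.mul_le_mul_right
          rw [← Multiset.toFinset_filter]
          exact Multiset.toFinset_card_le _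
      _ = 2 * m := by rw [hout]; ring
  have hbin : Ain.card ≤ 2 * (2 * m ^ 2 + m) := by
    have hsub : Ain ⊆ pointsOver E (f.roots.toFinset.filter (fun r => r ∈ V)) := by
      intro T hT
      rw [hAin, Finset.mem_filter] at hT
      exact mem_pointsOver hT.2.1 (Finset.mem_filter.mpr ⟨hroot T hT.1 hT.2.1, hT.2.2⟩)
    calc Ain.card ≤ (pointsOver E (f.roots.toFinset.filter (fun r => r ∈ V))).card :=
          Finset.card_le_card hsub
      _ ≤ (f.roots.toFinset.filter (fun r => r ∈ V)).card * 2 := card_pointsOver_le E _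
      _ ≤ (f.roots.filter (fun r => r ∈ V)).card * 2 := by
          apply Nat.mul_le_mul_right
          rw [← Multiset.toFinset_filter]
          exact Multiset.toFinset_card_le _
      _ = 2 * (2 * m ^ 2 + m) := by rw [hin]; ring
  have hcover : A ⊆ insert 0 (Aout ∪ Ain) := by
    intro T hT
    by_cases hT0 : T = 0
    · rw [hT0]; exact Finset.mem_insert_self _ _
    · apply Finset.mem_insert_of_mem
      by_cases hx : xc T ∈ V
      · exact Finset.mem_union_right _ (Finset.mem_filter.mpr ⟨hT, hT0, hx⟩)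
      · exact Finset.mem_union_left _ (Finset.mem_filter.mpr ⟨hT, hT0, hx⟩)
  have hle : A.card ≤ 1 + Aout.card + Ain.card := by
    calc A.card ≤ (insert 0 (Aout ∪ Ain)).card := Finset.card_le_card hcover
      _ ≤ (Aout ∪ Ain).card + 1 := Finset.card_insert_le _ _
      _ ≤ Aout.card + Ain.card + 1 := Nat.add_le_add_right (Finset.card_union_le _ _) 1
      _ = 1 + Aout.card + Ain.card := by ring
  have hAoutcard : Aout.card = 2 * m := by
    rw [hcardA, ← hq] at hle
    have e : (2 * m + 1) ^ 2 = 1 + 2 * m + 2 * (2 * m ^ 2 + m) := by ring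
    rw [e] at hle
    omega
  -- the target set
  have hset : {T : E.Point | p ^ j • T = 0 ∧ InKer E V.valuation T}
      = ((insert 0 Aout : Finset E.Point) : Set E.Point) := by
    ext T
    simp only [Set.mem_setOf_eq, Finset.coe_insert, Set.mem_insert_iff, Finset.mem_coe]
    constructor
    · rintro ⟨hT, hker⟩
      by_cases hT0 : T = 0
      · exact Or.inl hT0
      · right
        rw [hAout, Finset.mem_filter, hA, Set.Finite.mem_toFinset]
        refine ⟨hT, hT0, ?_⟩
        cases T with
        | zero => exact absurd rfl hT0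
        | some x y h =>
          change 1 < V.valuation x at hker
          rw [xc_some]
          intro hx
          exact (not_le.mpr hker) ((V.valuation_le_one_iff x).mpr hx)
    · rintro (rfl | hT)
      · exact ⟨smul_zero _, trivial⟩
      · rw [hAout, Finset.mem_filter, hA, Set.Finite.mem_toFinset] at hT
        refine ⟨hT.1, ?_⟩
        obtain ⟨hT1, hT0, hx⟩ := hT
        cases T with
        | zero => exact absurd rfl hT0
        | some x y h =>
          rw [xc_some] at hx
          change 1 < V.valuation x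
          rw [← not_le]
          exact fun hle => hx ((V.valuation_le_one_iff x).mp hle)
  rw [hset, Set.ncard_coe_finset, Finset.card_insert_of_notMem, hAoutcard, hq]
  rw [hAout, Finset.mem_filter]
  exact fun h => h.2.1 rfl

/-- **The other points of `E[p^j]` reduce to the node.** -/
theorem residue_xc_of_torsion (j : ℕ) (T : (curveK V W₀).Point) (hT : p ^ j • T = 0)
    (hT0 : T ≠ 0) (hx : xc T ∈ V) :
    IsLocalRing.residue V ⟨xc T, hx⟩ = nodeX (curveRes V W₀) := by
  rcases Nat.eq_zero_or_pos j with rfl | hj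
  · rw [pow_zero, one_smul] at hT
    exact absurd hT hT0
  have hpodd : Odd p := hp.out.odd_of_ne_two hp2
  have hqodd : Odd (p ^ j) := hpodd.pow
  obtain ⟨m, hqm⟩ := hqodd
  have hq : 2 * m + 1 = p ^ j := hqm.symm
  have hm : 1 ≤ m := by
    by_contra hlt
    have hm0 : m = 0 := by omega
    rw [hm0] at hq
    have : 2 ≤ p ^ j := le_trans hp.out.two_le (Nat.le_self_pow hj.ne' p)
    omega
  have hT' : (2 * m + 1) • T = 0 := by rw [hq]; exact hT
  have h1 := (torsion_iff_root hT0 m).mp hT'
  rw [← map_polyWV_K V W₀ m] at h1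
  have h2 := residue_isRoot_of_isRoot V (polyWV V W₀ m) ⟨xc T, hx⟩ h1
  rw [polyWV_res_eq V W₀ p hp2 hpV hΔ hc4 j m hm hq, Polynomial.IsRoot.def, Polynomial.eval_mul,
    Polynomial.eval_C, Polynomial.eval_pow, Polynomial.eval_sub, Polynomial.eval_X,
    Polynomial.eval_C] at h2
  rcases mul_eq_zero.mp h2 with h3 | h3
  · exact absurd h3 (pow_ne_zero m (nodeA_ne_zero V W₀ p hp2 hpV hΔ hc4))
  · exact sub_eq_zero.mp (pow_eq_zero_iff (by positivity) |>.mp h3)

end count

end Fermat.Agent.S59.H396
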