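import Mathlib
import Fermat.Agent.S59.H360.TateRep

/-!
# CR-O, part D1 (helper396): the line in the Tate module cut out by a "height one" subgroup

`E` an abelian group with `#E[p^n] = p^(2n)` (`H360.TorsCard`), `C ≤ E` a subgroup with
`#(C ∩ E[p^n]) = p^n` for all `n` (`LineCard`).  Then

  `tateLine C = {f ∈ T_p E | ∀ n, f n ∈ C}`

is a direct summand of rank one: there are `X, Y ∈ T_p E` with `pairMap X Y` bijective
(`(X, Y)` is a `ℤ_p`-basis) and `tateLine C = ℤ_p ∙ X`  (`exists_basis_tateLine`).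
-/

set_option autoImplicit false
set_option linter.unusedSectionVars false
set_option linter.style.haveILetI false

namespace Fermat.Agent.S59.H396

open Fermat.Agent.S59.H360 PadicInt

variable {p : ℕ} [hp : Fact p.Prime] {E : Type*} [AddCommGroup E]

/-- the "height one" hypothesis on a subgroup `C` of `E` -/
def LineCard (p : ℕ) (C : AddSubgroup E) : Prop :=
  ∀ n : ℕ, Nat.card ↥(C ⊓ tors p E n) = p ^ n

/-- the compatible sequences with values in `C` -/
def tateLine (C : AddSubgroup E) : Submodule ℤ_[p] (tateSub p E) where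
  carrier := {f | ∀ n, f.1 n ∈ C}
  add_mem' := fun {f g} hf hg n => by
    rw [tateSub_coe_add]; exact C.add_mem (hf n) (hg n)
  zero_mem' := fun n => C.zero_mem
  smul_mem' := fun z f hf n => by
    rw [tate_smul_apply]; exact C.nsmul_mem (hf n) _

lemma mem_tateLine {C : AddSubgroup E} {f : tateSub p E} :
    f ∈ tateLine (p := p) C ↔ ∀ n, f.1 n ∈ C := Iff.rfl

/-- the quotient by `tateLine C` is torsion free -/
lemma mem_tateLine_of_p_smul {C : AddSubgroup E} {f : tateSub p E}
    (h : (p : ℤ_[p]) • f ∈ tateLine (p := p) C) : f ∈ tateLine (p := p) C := by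
  intro n
  have h1 := h (n + 1)
  rw [tate_natCast_smul_apply, tateSub_p_smul] at h1
  exact h1

lemma mem_tateLine_of_pow_smul {C : AddSubgroup E} {f : tateSub p E} (k : ℕ)
    (h : ((p : ℤ_[p]) ^ k) • f ∈ tateLine (p := p) C) : f ∈ tateLine (p := p) C := by
  induction k with
  | zero => simpa using h
  | succ k ih =>
    apply ih
    apply mem_tateLine_of_p_smul
    rw [smul_smul, ← pow_succ']
    exact h

section divisible

variable {C : AddSubgroup E}

lemma LineCard.finite (hC : LineCard p C) (n : ℕ) : Finite ↥(C ⊓ tors p E n) :=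
  Nat.finite_of_card_ne_zero (by rw [hC n]; exact pow_ne_zero _ hp.out.ne_zero)

/-- multiplication by `p` from `C ∩ E[p^(n+1)]` to `C ∩ E[p^n]` -/
def lineMulP (C : AddSubgroup E) (n : ℕ) :
    ↥(C ⊓ tors p E (n + 1)) →+ ↥(C ⊓ tors p E n) where
  toFun y := ⟨p • y.1, AddSubgroup.mem_inf.mpr
    ⟨C.nsmul_mem (AddSubgroup.mem_inf.mp y.2).1 _, mem_tors.mpr (by
      rw [← mul_smul, ← pow_succ]; exact mem_tors.mp (AddSubgroup.mem_inf.mp y.2).2)⟩⟩
  map_zero' := by ext; simp
  map_add' a b := by ext; simp [smul_add]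

@[simp] lemma lineMulP_coe (C : AddSubgroup E) (n : ℕ) (y : ↥(C ⊓ tors p E (n + 1))) :
    ((lineMulP (p := p) C n y : ↥(C ⊓ tors p E n)) : E) = p • (y : E) := rfl

/-- the kernel of `lineMulP` is `C ∩ E[p]` -/
def kerLineMulPEquiv (C : AddSubgroup E) (n : ℕ) :
    (lineMulP (p := p) C n).ker ≃ ↥(C ⊓ tors p E 1) where
  toFun y := ⟨y.1.1, AddSubgroup.mem_inf.mpr ⟨(AddSubgroup.mem_inf.mp y.1.2).1, mem_tors.mpr (by
    rw [pow_one]
    have h := y.2
    rw [AddMonoidHom.mem_ker] at h
    exact congrArg Subtype.val h)⟩⟩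
  invFun x := ⟨⟨x.1, AddSubgroup.mem_inf.mpr ⟨(AddSubgroup.mem_inf.mp x.2).1, mem_tors.mpr (by
      rw [pow_succ, mul_smul]
      have h := mem_tors.mp (AddSubgroup.mem_inf.mp x.2).2
      rw [pow_one] at h
      rw [h, smul_zero])⟩⟩, by
    rw [AddMonoidHom.mem_ker]
    ext
    have h := mem_tors.mp (AddSubgroup.mem_inf.mp x.2).2
    rw [pow_one] at h
    simpa using h⟩
  left_inv y := by ext; rfl
  right_inv x := by ext; rfl

lemma lineMulP_surjective (hC : LineCard p C) (n : ℕ) :
    Function.Surjective (lineMulP (p := p) C n) := by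
  have := hC.finite n
  have := hC.finite (n + 1)
  have h1 : Nat.card (lineMulP (p := p) C n).ker * (lineMulP (p := p) C n).ker.index
      = Nat.card ↥(C ⊓ tors p E (n + 1)) := AddSubgroup.card_mul_index _
  rw [AddSubgroup.index_ker, Nat.card_congr (kerLineMulPEquiv C n), hC 1, hC (n + 1)] at h1
  have h2 : Nat.card (lineMulP (p := p) C n).range = p ^ n := by
    have h3 : p ^ (n + 1) = p ^ 1 * p ^ n := by rw [← pow_add]; ring_nf
    rw [h3] at h1
    exact Nat.eq_of_mul_eq_mul_left (pow_pos hp.out.pos _) h1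
  have h4 : (lineMulP (p := p) C n).range = ⊤ :=
    AddSubgroup.eq_top_of_card_eq _ (by rw [h2, hC n])
  exact AddMonoidHom.range_eq_top.mp h4

/-- a compatible sequence in `C` with nonzero first term -/
theorem exists_line_generator (hC : LineCard p C) :
    ∃ X : tateSub p E, X ∈ tateLine (p := p) C ∧ X.1 1 ≠ 0 := by
  have hfin := hC.finite 1
  have hnt : Nontrivial ↥(C ⊓ tors p E 1) := by
    rw [← Finite.one_lt_card_iff_nontrivial, hC 1, pow_one]
    exact hp.out.one_lt
  obtain ⟨e, he⟩ := exists_ne (0 : ↥(C ⊓ tors p E 1))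
  choose g hg using fun n => lineMulP_surjective hC n
  -- the sequence `t n ∈ C ∩ E[p^(n+1)]`
  let t : (n : ℕ) → ↥(C ⊓ tors p E (n + 1)) :=
    fun n => Nat.rec (motive := fun n => ↥(C ⊓ tors p E (n + 1))) e (fun n x => g (n + 1) x) n
  have ht0 : t 0 = e := rfl
  have htsucc : ∀ n, t (n + 1) = g (n + 1) (t n) := fun n => rfl
  have htp : ∀ n, p • (t (n + 1)).1 = (t n).1 := by
    intro n
    have := congrArg Subtype.val (hg (n + 1) (t n))
    rw [htsucc]
    exact this
  let X : ℕ → E := fun n => match n with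
    | 0 => 0
    | k + 1 => (t k).1
  have hX : X ∈ tateSub p E := by
    intro n
    cases n with
    | zero =>
      refine ⟨by simp [X], ?_⟩
      show p • (t 0).1 = 0
      have := mem_tors.mp (AddSubgroup.mem_inf.mp (t 0).2).2
      simpa using this
    | succ k =>
      refine ⟨mem_tors.mp (AddSubgroup.mem_inf.mp (t k).2).2, ?_⟩
      show p • (t (k + 1)).1 = (t k).1
      exact htp k
  refine ⟨⟨X, hX⟩, ?_, ?_⟩
  · intro n
    cases n with
    | zero => exact C.zero_mem
    | succ k => exact (AddSubgroup.mem_inf.mp (t k).2).1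
  · show (t 0).1 ≠ 0
    rw [ht0]
    exact fun h0 => he (Subtype.ext h0)

end divisible

section basis

/-- a nonzero point of `E[p]` is part of an `𝔽_p`-independent pair -/
theorem exists_indep_of_ne_zero (h : TorsCard p E) {e : E} (hpe : p • e = 0) (he0 : e ≠ 0) :
    ∃ e₂ : E, p • e₂ = 0 ∧
      ∀ a b : ℤ, a • e + b • e₂ = 0 → (p : ℤ) ∣ a ∧ (p : ℤ) ∣ b := by
  have hfin := h.finite 1
  have hc1 : Nat.card (tors p E 1) = p ^ 2 := by rw [h 1]
  have hp2 : 2 ≤ p := hp.out.two_le
  have hord : addOrderOf e = p := addOrderOf_eq_prime hpe he0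
  have hZcard : Nat.card (AddSubgroup.zmultiples e) = p := by
    rw [Nat.card_zmultiples, hord]
  obtain ⟨e₂, he₂, he₂Z⟩ : ∃ e₂ : E, e₂ ∈ tors p E 1 ∧ e₂ ∉ AddSubgroup.zmultiples e := by
    by_contra hcon
    push Not at hcon
    have hle : tors p E 1 ≤ AddSubgroup.zmultiples e := fun x hx => hcon x hx
    have hfinZ : Finite (AddSubgroup.zmultiples e) :=
      Nat.finite_of_card_ne_zero (by rw [hZcard]; exact hp.out.ne_zero)
    have := AddSubgroup.card_le_of_le hle
    rw [hc1, hZcard] at this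
    nlinarith
  have hpe₂ : p • e₂ = 0 := by
    have := mem_tors.mp he₂
    rwa [pow_one] at this
  refine ⟨e₂, hpe₂, fun a b hab => ?_⟩
  have hb : (p : ℤ) ∣ b := by
    by_contra hnb
    have hcop : IsCoprime b (p : ℤ) :=
      ((Nat.prime_iff_prime_int.mp hp.out).coprime_iff_not_dvd.mpr hnb).symm
    obtain ⟨u, v, huv⟩ := hcop
    apply he₂Z
    rw [AddSubgroup.mem_zmultiples_iff]
    refine ⟨-(u * a), ?_⟩
    have h1 : b • e₂ = -(a • e) := by
      rw [eq_neg_iff_add_eq_zero, add_comm]; exact hab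
    have h2 : (p : ℤ) • e₂ = 0 := by rw [natCast_zsmul]; exact hpe₂
    calc (-(u * a)) • e = u • (-(a • e)) := by
          rw [neg_smul, mul_smul, smul_neg]
      _ = u • (b • e₂) := by rw [h1]
      _ = (u * b) • e₂ + (v * (p : ℤ)) • e₂ := by
          rw [mul_smul, mul_smul v, h2, smul_zero, add_zero]
      _ = e₂ := by rw [← add_smul, huv, one_smul]
  refine ⟨?_, hb⟩
  obtain ⟨b', rfl⟩ := hb
  have h2 : ((p : ℤ) * b') • e₂ = 0 := by
    rw [mul_comm, mul_smul, natCast_zsmul, hpe₂, smul_zero]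
  rw [h2, add_zero] at hab
  have := (addOrderOf_dvd_iff_zsmul_eq_zero (x := e) (i := a)).mpr hab
  rwa [hord] at this

variable {C : AddSubgroup E}

/-- **The line `tateLine C` is spanned by the first vector of a basis.** -/
theorem exists_basis_tateLine (h : TorsCard p E) (hC : LineCard p C) :
    ∃ X Y : tateSub p E, Function.Bijective (pairMap X Y) ∧
      tateLine (p := p) C = Submodule.span ℤ_[p] {X} := by
  obtain ⟨X, hXL, hX1⟩ := exists_line_generator hC
  have hpX : p • X.1 1 = 0 := by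
    have := tateSub_pow_smul X 1
    rwa [pow_one] at this
  obtain ⟨e₂, hpe₂, hind⟩ := exists_indep_of_ne_zero h hpX hX1
  obtain ⟨Y, hY⟩ := exists_tate_lift h (n := 1) (x := e₂) (by rwa [pow_one])
  have hind' : ∀ a b : ℤ, a • X.1 1 + b • Y.1 1 = 0 → (p : ℤ) ∣ a ∧ (p : ℤ) ∣ b := by
    rw [hY]; exact hind
  have hbij : Function.Bijective (pairMap X Y) :=
    ⟨pairMap_injective X Y hind', pairMap_surjective h X Y hind'⟩
  refine ⟨X, Y, hbij, le_antisymm ?_ ?_⟩
  · -- `tateLine C ≤ span {X}`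
    intro f hf
    obtain ⟨v, hv⟩ := hbij.2 f
    rw [pairMap_apply] at hv
    have hbY : v 1 • Y ∈ tateLine (p := p) C := by
      have : v 1 • Y = f - v 0 • X := by rw [← hv]; abel
      rw [this]
      exact Submodule.sub_mem _ hf (Submodule.smul_mem _ _ hXL)
    have hv1 : v 1 = 0 := by
      by_contra hne
      -- `v 1 = u * p^k`
      have hval := PadicInt.unitCoeff_spec hne
      set u := PadicInt.unitCoeff hne with hu
      set k := (v 1).valuation with hk
      have h1 : ((p : ℤ_[p]) ^ k) • ((u : ℤ_[p]) • Y) ∈ tateLine (p := p) C := by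
        rw [smul_smul, mul_comm, ← hval]; exact hbY
      have h2 : (u : ℤ_[p]) • Y ∈ tateLine (p := p) C := mem_tateLine_of_pow_smul k h1
      have h3 : Y ∈ tateLine (p := p) C := by
        have := Submodule.smul_mem (tateLine (p := p) C) ((u⁻¹ : ℤ_[p]ˣ) : ℤ_[p]) h2
        rwa [smul_smul, Units.inv_mul, one_smul] at this
      -- `X 1` and `Y 1` both lie in `C ∩ E[p]`, of prime order
      have hY1 : p • Y.1 1 = 0 := by
        have := tateSub_pow_smul Y 1
        rwa [pow_one] at this
      let x1 : ↥(C ⊓ tors p E 1) := ⟨X.1 1, AddSubgroup.mem_inf.mpr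
        ⟨hXL 1, mem_tors.mpr (by rwa [pow_one])⟩⟩
      let y1 : ↥(C ⊓ tors p E 1) := ⟨Y.1 1, AddSubgroup.mem_inf.mpr
        ⟨h3 1, mem_tors.mpr (by rwa [pow_one])⟩⟩
      have hx1 : x1 ≠ 0 := fun h0 => hX1 (congrArg Subtype.val h0)
      have hcard : Nat.card ↥(C ⊓ tors p E 1) = p := by rw [hC 1, pow_one]
      have hmem : y1 ∈ AddSubgroup.zmultiples x1 := mem_zmultiples_of_prime_card hcard hx1
      obtain ⟨c, hc⟩ := AddSubgroup.mem_zmultiples_iff.mp hmem
      have hc' : c • X.1 1 = Y.1 1 := by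
        have := congrArg Subtype.val hc
        simpa [x1, y1] using this
      have h4 : c • X.1 1 + (-1 : ℤ) • Y.1 1 = 0 := by
        rw [hc', neg_smul, one_smul, add_neg_cancel]
      have h5 := (hind' c (-1) h4).2
      have h6 : (p : ℤ) ∣ 1 := by simpa using h5
      have h7 := Int.eq_one_of_dvd_one (by positivity) h6
      have : p = 1 := by exact_mod_cast h7
      exact hp.out.one_lt.ne' this
    rw [hv1, zero_smul, add_zero] at hv
    rw [← hv]
    exact Submodule.smul_mem _ _ (Submodule.mem_span_singleton_self X)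
  · rw [Submodule.span_le, Set.singleton_subset_iff]
    exact hXL

end basis

end Fermat.Agent.S59.H396
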