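import Mathlib
import Fermat.Agent.S59.H396.OrdLine
import Fermat.Prelude.Def_GaloisRep_StrictOrdinary

/-!
# CR-O, part D2 (helper396): strict ordinarity of the Tate module from torsion-level data

`E` an abelian group with an action of `Gal(ℚ̄/ℚ)`, `#E[p^n] = p^(2n)`, every `E[p^n]` fixed by
an open subgroup, so that `H360.tateRepOf h hfl : GaloisRepAdic ℤ_[p]` is defined.

`OrdDataAt p E P` packages what the theory of the Tate curve (multiplicative reduction at the
place `P` over `p`) gives on the torsion points: a subgroup `C` ("kernel of reduction") with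
`#(C ∩ E[p^n]) = p^n`, stable under the decomposition group, such that inertia acts trivially on
`E[p^∞]/C` and every element of the decomposition group acts on `E[p^∞]/C` by a sign.

`isStrictOrdinaryAt_of_data` : if the determinant is cyclotomic and `OrdDataAt p E P` holds for
all `P` over `p`, then `tateRepOf h hfl` is strictly ordinary at `p` (prelude
`GaloisRepAdic.IsStrictOrdinaryAt`).
-/

set_option autoImplicit false
set_option linter.unusedSectionVars false
set_option linter.style.haveILetI false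

namespace Fermat.Agent.S59.H396

open Fermat.Agent.S59.H360 PadicInt

local notation "GQ" => (AlgebraicClosure ℚ ≃ₐ[ℚ] AlgebraicClosure ℚ)

section General

variable {p : ℕ} [hp : Fact p.Prime] {E : Type*} [AddCommGroup E]

/-- integer scalars act componentwise on the Tate module -/
lemma tate_intCast_smul_apply (c : ℤ) (g : tateSub p E) (n : ℕ) :
    ((c : ℤ_[p]) • g).1 n = c • g.1 n := by
  rcases Int.eq_nat_or_neg c with ⟨m, rfl | rfl⟩
  · rw [Int.cast_natCast, tate_natCast_smul_apply, natCast_zsmul]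
  · rw [Int.cast_neg, Int.cast_natCast, neg_smul, neg_smul, tateSub_coe_neg,
      tate_natCast_smul_apply, natCast_zsmul]

/-- the basis of `T_p E` attached to a bijective `pairMap` -/
noncomputable def pairBasis (X Y : tateSub p E) (hb : Function.Bijective (pairMap X Y)) :
    Module.Basis (Fin 2) ℤ_[p] (tateSub p E) :=
  Module.Basis.ofEquivFun (LinearEquiv.ofBijective (pairMap X Y) hb).symm

lemma pairBasis_zero (X Y : tateSub p E) (hb : Function.Bijective (pairMap X Y)) :
    pairBasis X Y hb 0 = X := by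
  simp [pairBasis, Module.Basis.coe_ofEquivFun, pairMap_apply]

lemma pairBasis_one (X Y : tateSub p E) (hb : Function.Bijective (pairMap X Y)) :
    pairBasis X Y hb 1 = Y := by
  simp [pairBasis, Module.Basis.coe_ofEquivFun, pairMap_apply]

/-- determinant of an endomorphism which is upper triangular in a basis `(X, Y)` -/
lemma det_of_triangular {A : Type*} [CommRing A] {V : Type*} [AddCommGroup V] [Module A V]
    (b : Module.Basis (Fin 2) A V) (f : V →ₗ[A] V) (x z c : A)
    (h0 : f (b 0) = x • b 0) (h1 : f (b 1) = z • b 1 + c • b 0) :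
    LinearMap.det f = x * z := by
  rw [← LinearMap.det_toMatrix b f, Matrix.det_fin_two]
  simp only [LinearMap.toMatrix_apply, h0, h1, map_add, map_smul, Module.Basis.repr_self,
    Finsupp.smul_single, smul_eq_mul, mul_one, Finsupp.coe_add, Pi.add_apply,
    Finsupp.single_apply]
  simp

end General

section Galois

variable (p : ℕ) [hp : Fact p.Prime] (E : Type) [AddCommGroup E] [DistribMulAction GQ E]

/-- **The torsion-level input for strict ordinarity at a place `P` over `p`.** -/
def OrdDataAt (P : ValuationSubring (AlgebraicClosure ℚ)) : Prop :=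
  ∃ C : AddSubgroup E, LineCard p C ∧
    (∀ σ ∈ P.decompositionSubgroup ℚ, ∀ x ∈ C, σ • x ∈ C) ∧
    (∀ σ ∈ P.inertiaSubgroupIn ℚ, ∀ (n : ℕ) (x : E), p ^ n • x = 0 → σ • x - x ∈ C) ∧
    (∀ σ ∈ P.decompositionSubgroup ℚ, ∃ z : ℤ, (z = 1 ∨ z = -1) ∧
      ∀ (n : ℕ) (x : E), p ^ n • x = 0 → σ • x - z • x ∈ C)

variable {p E}

/-- the local statement, in terms of `tateAction` -/
theorem ordAt_of_data (h : TorsCard p E) (P : ValuationSubring (AlgebraicClosure ℚ))
    (hdet : ∀ (n : ℕ) (σ : GQ) (a : ℕ),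
      (∀ μ : AlgebraicClosure ℚ, μ ^ p ^ n = 1 → σ μ = μ ^ a) →
        LinearMap.det (tateAction p E σ) - (a : ℤ_[p]) ∈ Ideal.span {((p ^ n : ℕ) : ℤ_[p])})
    (hdata : OrdDataAt p E P) :
    ∃ L : Submodule ℤ_[p] (tateSub p E),
      (∃ b : Module.Basis (Fin 2) ℤ_[p] (tateSub p E), L = ℤ_[p] ∙ b 0) ∧
      (∀ σ ∈ P.decompositionSubgroup ℚ, ∀ v ∈ L, tateAction p E σ v ∈ L) ∧
      (∀ σ ∈ P.inertiaSubgroupIn ℚ, ∀ v : tateSub p E, tateAction p E σ v - v ∈ L) ∧
      (∀ σ ∈ P.decompositionSubgroup ℚ, ∃ x z : ℤ_[p],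
        (∀ w ∈ L, tateAction p E σ w = x • w) ∧
        (∀ v : tateSub p E, tateAction p E σ v - z • v ∈ L) ∧
        ∀ (n a : ℕ), (∀ μ : AlgebraicClosure ℚ, μ ^ p ^ n = 1 → σ μ = μ ^ a) →
          x - (a : ℤ_[p]) * z ∈ Ideal.span {((p ^ n : ℕ) : ℤ_[p])}) := by
  obtain ⟨C, hC, hD, hI, hZ⟩ := hdata
  obtain ⟨X, Y, hbij, hL⟩ := exists_basis_tateLine h hC
  have hXL : X ∈ tateLine (p := p) C := by rw [hL]; exact Submodule.mem_span_singleton_self X
  refine ⟨tateLine (p := p) C, ⟨pairBasis X Y hbij, ?_⟩, ?_, ?_, ?_⟩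
  · rw [pairBasis_zero]; exact hL
  · intro σ hσ v hv n
    exact hD σ hσ _ (hv n)
  · intro σ hσ v n
    rw [tateSub_coe_sub, tateAction_apply_coe]
    exact hI σ hσ n _ (tateSub_pow_smul v n)
  · intro σ hσ
    obtain ⟨z, hz, hzC⟩ := hZ σ hσ
    -- the eigenvalue on the line
    have hσX : tateAction p E σ X ∈ tateLine (p := p) C := fun n => hD σ hσ _ (hXL n)
    rw [hL] at hσX
    obtain ⟨x, hx⟩ := Submodule.mem_span_singleton.mp hσX
    -- the action on the quotient
    have hquot : ∀ v : tateSub p E,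
        tateAction p E σ v - (z : ℤ_[p]) • v ∈ tateLine (p := p) C := by
      intro v n
      rw [tateSub_coe_sub, tateAction_apply_coe, tate_intCast_smul_apply]
      exact hzC n _ (tateSub_pow_smul v n)
    have hσY := hquot Y
    rw [hL] at hσY
    obtain ⟨c, hc⟩ := Submodule.mem_span_singleton.mp hσY
    have hdetσ : LinearMap.det (tateAction p E σ) = x * (z : ℤ_[p]) := by
      refine det_of_triangular (pairBasis X Y hbij) _ x z c ?_ ?_
      · rw [pairBasis_zero]; exact hx.symm
      · rw [pairBasis_zero, pairBasis_one, hc]; abel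
    refine ⟨x, (z : ℤ_[p]), ?_, hquot, ?_⟩
    · intro w hw
      rw [hL] at hw
      obtain ⟨d, rfl⟩ := Submodule.mem_span_singleton.mp hw
      rw [map_smul, ← hx, smul_comm]
    · intro n a ha
      have h1 := hdet n σ a ha
      rw [hdetσ] at h1
      have hz2 : (z : ℤ_[p]) * (z : ℤ_[p]) = 1 := by
        rcases hz with rfl | rfl <;> simp
      have : x - (a : ℤ_[p]) * (z : ℤ_[p]) = (z : ℤ_[p]) * (x * (z : ℤ_[p]) - (a : ℤ_[p])) := by
        linear_combination (-x) * hz2
      rw [this]
      exact Ideal.mul_mem_left _ _ h1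

/-- **Strict ordinarity of the Tate module from torsion-level data.** -/
theorem isStrictOrdinaryAt_of_data (h : TorsCard p E) (hfl : TorsFiniteLevel p E)
    (hdet : (tateRepOf h hfl).DetIsCyclotomic p)
    (hdata : ∀ P : ValuationSubring (AlgebraicClosure ℚ), P.LiesOverPrime p → OrdDataAt p E P) :
    (tateRepOf h hfl).IsStrictOrdinaryAt p :=
  ⟨hdet.1, fun P hP => ordAt_of_data h P hdet.2 (hdata P hP)⟩

end Galois

end Fermat.Agent.S59.H396
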