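import Fermat.Agent.S59.H396.OrdData
import Fermat.Agent.S59.H127.AsmZp
import Fermat.Agent.S56.H966.CondBC

/-!
# CR-O, part E (helper396): `H127.OrdInput` — the Tate representation of a semistable integral
model is strictly ordinary at an odd prime `p` of bad (= multiplicative) reduction

* `phiTateEquiv cb`   : the `ℤ_p`-linear isomorphism `ℤ_p² ≃ T_p E` (compatible sequences,
                         `H360.tateSub`) attached to a compatible system of bases `cb`
                         (`H127.CompatBasis`);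
* `torsCard_pts`, `torsFiniteLevel_pts` : `#E[p^n] = p^(2n)` and finite level for `E(ℚ̄)`;
* `tateEquivRep W cb` : `H127.tateGaloisRep (WQ W) cb ≃ H360.tateRepOf …` as Galois
                         representations;
* `isStrictOrdinaryAt_tateGaloisRep` : strict ordinarity at `p` of `H127.tateGaloisRep (WQ W) cb`
                         from `DetIsCyclotomic` + multiplicative reduction at `p ≠ 2`;
* `ordInput_of_det`, `ordInput_of_detInput` : **`H127.OrdInput p W`**.
-/

set_option autoImplicit false
set_option linter.unusedSectionVars false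
set_option linter.unusedVariables false
set_option linter.style.haveILetI false

namespace Fermat.Agent.S59.H396

open WeierstrassCurve WeierstrassCurve.Affine
open scoped WeierstrassCurve.Affine
open Fermat.Agent.S59.H360 Fermat.Agent.S59.H127 Fermat.Agent.S59.H899 PadicInt

section abstract

variable {p : ℕ} [hp : Fact p.Prime] {E : Type*} [AddCommGroup E] (cb : CompatBasis E p 2)

/-- the compatible sequence attached to a coordinate vector -/
noncomputable def phiTate (a : Fin 2 → ℤ_[p]) : tateSub p E :=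
  ⟨fun k => cb.Φ a k, fun k => ⟨cb.Φ_torsion a k, cb.Φ_succ a k⟩⟩

lemma phiTate_apply (a : Fin 2 → ℤ_[p]) (k : ℕ) : (phiTate cb a).1 k = cb.Φ a k := rfl

/-- `phiTate` as a linear map -/
noncomputable def phiTateLin : (Fin 2 → ℤ_[p]) →ₗ[ℤ_[p]] tateSub p E where
  toFun := phiTate cb
  map_add' a b := tateSub_ext fun k => by
    rw [tateSub_coe_add, phiTate_apply, phiTate_apply, phiTate_apply, cb.Φ_add]
  map_smul' c a := tateSub_ext fun k => by
    rw [RingHom.id_apply, tate_smul_apply, phiTate_apply, phiTate_apply, cb.Φ_smul]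

lemma phiTateLin_apply (a : Fin 2 → ℤ_[p]) (k : ℕ) : (phiTateLin cb a).1 k = cb.Φ a k := rfl

lemma phiTateLin_bijective : Function.Bijective (phiTateLin cb) :=
  ⟨fun a b hab => cb.Φ_injective fun k => by
      rw [← phiTateLin_apply, ← phiTateLin_apply, hab],
   fun f => by
     obtain ⟨a, ha⟩ := cb.Φ_surjective f.1 (tateSub_zero_apply f) (fun k => tateSub_p_smul f k)
     exact ⟨a, tateSub_ext ha⟩⟩

/-- **`ℤ_p² ≃ T_p E`** -/
noncomputable def phiTateEquiv : (Fin 2 → ℤ_[p]) ≃ₗ[ℤ_[p]] tateSub p E :=
  LinearEquiv.ofBijective (phiTateLin cb) (phiTateLin_bijective cb)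

lemma phiTateEquiv_apply (a : Fin 2 → ℤ_[p]) (k : ℕ) : (phiTateEquiv cb a).1 k = cb.Φ a k := rfl

end abstract

section galois

variable {p : ℕ} [hp : Fact p.Prime] (W : WeierstrassCurve ℤ)
  [hE : ((WQ W)⁄(AlgebraicClosure ℚ)).IsElliptic]

/-- `#E[p^n] = p^(2n)` -/
theorem torsCard_pts : TorsCard p (Pts W) := by
  intro n
  have h := card_torsion_eq ((WQ W)⁄(AlgebraicClosure ℚ)) (p ^ n)
  rw [← pow_mul, mul_comm] at h
  rw [← h]
  refine Nat.card_congr (Equiv.subtypeEquivRight fun x => ?_)
  rw [mem_tors, mem_torsionBy_natCast_iff]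

/-- the `p^n`-torsion is defined over a finite extension -/
theorem torsFiniteLevel_pts : TorsFiniteLevel p (Pts W) := fun n =>
  exists_finite_level (WQ W) (p ^ n) (Nat.one_le_pow _ _ hp.out.pos)

/-- the two models of the Tate module are isomorphic Galois representations -/
noncomputable def tateEquivRep (cb : CompatBasis (Pts W) p 2) :
    GaloisRepAdic.Equiv (tateGaloisRep (WQ W) cb)
      (tateRepOf (torsCard_pts (p := p) W) (torsFiniteLevel_pts W)) where
  toLinearEquiv := phiTateEquiv cb
  map_apply σ a := tateSub_ext fun k => Φ_tateGaloisRep (WQ W) cb σ a k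

variable {W}

/-- **Strict ordinarity of the Tate representation at an odd prime of multiplicative
reduction**, given that the determinant is cyclotomic. -/
theorem isStrictOrdinaryAt_tateGaloisRep (hp2 : p ≠ 2) (hΔ : W.Δ ≠ 0)
    (hbad : (p : ℤ) ∣ W.Δ) (hc₄ : ¬ (p : ℤ) ∣ W.c₄) (cb : CompatBasis (Pts W) p 2)
    (hdet : (tateGaloisRep (WQ W) cb).DetIsCyclotomic p) :
    (tateGaloisRep (WQ W) cb).IsStrictOrdinaryAt p := by
  have e := tateEquivRep W cb
  have hdet' : (tateRepOf (torsCard_pts (p := p) W) (torsFiniteLevel_pts W)).DetIsCyclotomic p :=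
    Fermat.Agent.S56.H966.detIsCyclotomic_of_isEquiv ⟨e⟩ hdet
  have h := isStrictOrdinaryAt_of_data (torsCard_pts (p := p) W) (torsFiniteLevel_pts W) hdet'
    (fun P hP => ordDataAt_of_mult hp2 hΔ hbad hc₄ hP)
  exact Fermat.Agent.S56.H966.isStrictOrdinaryAt_of_isEquiv ⟨e.symm⟩ h

end galois

section input

variable {p : ℕ} [hp : Fact p.Prime] {W : WeierstrassCurve ℤ}

/-- **`OrdInput`** from the cyclotomic determinant -/
theorem ordInput_of_det (hp2 : p ≠ 2) (hΔ : W.Δ ≠ 0) (hss : W.IsSemistableModel)
    (hdet : ∀ (hE : ((WQ W)⁄(AlgebraicClosure ℚ)).IsElliptic) (cb : CompatBasis (Pts W) p 2),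
      (@tateGaloisRep (WQ W) hE p _ cb).DetIsCyclotomic p) :
    OrdInput p W := by
  intro hbad hE cb
  exact isStrictOrdinaryAt_tateGaloisRep hp2 hΔ (not_not.mp hbad)
    (hss p hp.out (not_not.mp hbad)) cb (hdet hE cb)

/-- **`OrdInput`** from `DetInput` -/
theorem ordInput_of_detInput (hp2 : p ≠ 2) (hΔ : W.Δ ≠ 0) (hss : W.IsSemistableModel)
    (hdet : DetInput p W) : OrdInput p W :=
  ordInput_of_det hp2 hΔ hss fun hE cb =>
    @detIsCyclotomic_of_input p _ W hE cb hdet

end input

end Fermat.Agent.S59.H396
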