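import Fermat.Agent.S59.H240.Node.Main

/-!
# CR-O, part C1 (helper396): two points at the same distance from the node

Complement to `H240.sub_inE0` (helper240).  `W` an integral Weierstrass curve over an
algebraically closed valued field, multiplicative reduction.  If `P`, `P'` are integral points
with singular reduction and the same distance to the node (`rad P' = rad P`), then

  `P' - P ∈ E₀`   or   `P' + P ∈ E₀`      (`sub_or_add_inE0`).

(No hypothesis on the directions: `P'` lies on the branch of `P` or on the branch of `-P`, or both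
are in the middle class.)  This is what is needed for elements of the DECOMPOSITION group, which
may exchange the two tangent directions at the node.
-/

set_option autoImplicit false
set_option linter.unusedSectionVars false
set_option linter.unusedVariables false

namespace Fermat.Agent.S59.H396

open WeierstrassCurve WeierstrassCurve.Affine
open Fermat.Agent.S05.SameRed (IntegralCoeffs)
open Fermat.Agent.Lib.VC
open Fermat.Agent.S59.H240

variable {K : Type*} [Field K] {Γ₀ : Type*} [LinearOrderedCommGroupWithZero Γ₀]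
  {v : Valuation K Γ₀} [DecidableEq K]

/-- the normal form case -/
lemma node_sub_or_add_inE0 {N : WeierstrassCurve K} {a : K} (hN : N = nodeCurve a)
    (ha0 : a ≠ 0) (ha : v a < 1) {x y x' y' : K}
    (h : N.toAffine.Nonsingular x y) (h' : N.toAffine.Nonsingular x' y')
    (hx : v x ≤ 1) (hx' : v x' ≤ 1) (hrad : rad N v x y < 1)
    (heq : rad N v x' y' = rad N v x y) :
    InE0 N.toAffine v (Point.some x' y' h' - Point.some x y h) ∨
      InE0 N.toAffine v (Point.some x' y' h' + Point.some x y h) := by
  subst hN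
  have hE := nodeCurve_equation_iff.mp h.1
  have hE' := nodeCurve_equation_iff.mp h'.1
  -- both points lie in the annulus
  have hann : ∀ {x y : K} (h : (nodeCurve a).toAffine.Nonsingular x y), v x ≤ 1 →
      rad (nodeCurve a) v x y < 1 → v x < 1 := by
    intro x y h hx hr
    by_contra hge
    rw [not_lt] at hge
    have := node_inE0_of_le ha h hge
    rw [inE0_some] at this
    rcases this with h1 | h1 | h1
    · exact absurd hx (not_le.mpr h1)
    · have : (1 : Γ₀) ≤ rad (nodeCurve a) v x y := by rw [rad, ← h1]; exact le_max_left _ _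
      exact absurd hr (not_lt.mpr this)
    · have : (1 : Γ₀) ≤ rad (nodeCurve a) v x y := by rw [rad, ← h1]; exact le_max_right _ _
      exact absurd hr (not_lt.mpr this)
  have hx1 := hann h hx hrad
  have hx1' := hann h' hx' (by rw [heq]; exact hrad)
  -- the negative of `P`
  have hneg : -Point.some x y h
      = Point.some x ((nodeCurve a).toAffine.negY x y) ((Affine.nonsingular_neg x y).mpr h) :=
    Point.neg_some h
  have hEn : NodeEq a x ((nodeCurve a).toAffine.negY x y) :=
    nodeCurve_equation_iff.mp ((Affine.nonsingular_neg x y).mpr h).1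
  rcases hE.class_cases hx1 with hM | hP | hB
  · rcases hE'.class_cases hx1' with hM' | hP' | hB'
    · exact Or.inl (node_sub_inE0 ha0 ha h h' hx1 hx1' (Or.inl ⟨hM, hM'⟩))
    · exfalso
      rw [hM.rad_eq ha0 ha hE, hP'.rad_eq hx1'] at heq
      exact absurd hP'.1 (by rw [heq]; exact lt_irrefl _)
    · exfalso
      rw [hM.rad_eq ha0 ha hE, hB'.rad_eq hx1'] at heq
      exact absurd hB'.1 (by rw [heq]; exact lt_irrefl _)
  · rcases hE'.class_cases hx1' with hM' | hP' | hB'
    · exfalso
      rw [hM'.rad_eq ha0 ha hE', hP.rad_eq hx1] at heq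
      exact absurd hP.1 (by rw [heq]; exact lt_irrefl _)
    · rw [hP.rad_eq hx1, hP'.rad_eq hx1'] at heq
      exact Or.inl (node_sub_inE0 ha0 ha h h' hx1 hx1' (Or.inr (Or.inl ⟨heq.symm, hP, hP'⟩)))
    · rw [hP.rad_eq hx1, hB'.rad_eq hx1'] at heq
      right
      have hPn : BrN v a x ((nodeCurve a).toAffine.negY x y) := by
        rw [nodeCurve_negY]; exact hP.neg
      have key := node_sub_inE0 ha0 ha ((Affine.nonsingular_neg x y).mpr h) h' hx1 hx1'
        (Or.inr (Or.inr ⟨heq.symm, hPn, hB'⟩))
      rwa [← hneg, sub_neg_eq_add] at key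
  · rcases hE'.class_cases hx1' with hM' | hP' | hB'
    · exfalso
      rw [hM'.rad_eq ha0 ha hE', hB.rad_eq hx1] at heq
      exact absurd hB.1 (by rw [heq]; exact lt_irrefl _)
    · rw [hB.rad_eq hx1, hP'.rad_eq hx1'] at heq
      right
      have hPn : BrP v a x ((nodeCurve a).toAffine.negY x y) := by
        rw [nodeCurve_negY]; exact hB.neg
      have key := node_sub_inE0 ha0 ha ((Affine.nonsingular_neg x y).mpr h) h' hx1 hx1'
        (Or.inr (Or.inl ⟨heq.symm, hPn, hP'⟩))
      rwa [← hneg, sub_neg_eq_add] at key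
    · rw [hB.rad_eq hx1, hB'.rad_eq hx1'] at heq
      exact Or.inl (node_sub_inE0 ha0 ha h h' hx1 hx1' (Or.inr (Or.inr ⟨heq.symm, hB, hB'⟩)))

/-- **Two integral points with singular reduction at the same distance from the node differ, up
to sign, by a point of `E₀`.** -/
theorem sub_or_add_inE0 [IsAlgClosed K] (h2 : (2 : K) ≠ 0) {W : WeierstrassCurve K}
    (hW : IntegralCoeffs W.toAffine v) (hc₄ : v W.c₄ = 1) (hΔ : W.Δ ≠ 0)
    {x y x' y' : K} (h : W.toAffine.Nonsingular x y) (h' : W.toAffine.Nonsingular x' y')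
    (hx : v x ≤ 1) (hy : v y ≤ 1) (hx' : v x' ≤ 1)
    (hrad : rad W v x y < 1) (heq : rad W v x' y' = rad W v x y) :
    InE0 W.toAffine v (Point.some x' y' h' - Point.some x y h) ∨
      InE0 W.toAffine v (Point.some x' y' h' + Point.some x y h) := by
  have hG : v (gX W x y) < 1 := lt_of_le_of_lt (le_max_left _ _) hrad
  have hH : v (gY W x y) < 1 := lt_of_le_of_lt (le_max_right _ _) hrad
  obtain ⟨C, a, hu, hr, hs, ht, ha0, ha, hCW⟩ := exists_nodeForm h2 hW hc₄ hΔ h.1 hx hy hG hH
  -- the points in the new coordinates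
  obtain ⟨Q, hQ⟩ := (vcPoint W C).surjective (Point.some x y h)
  obtain ⟨Q', hQ'⟩ := (vcPoint W C).surjective (Point.some x' y' h')
  rcases Q with _ | ⟨X, Y, hXY⟩
  · change (vcPoint W C) 0 = _ at hQ
    rw [vcPoint_zero] at hQ; exact absurd hQ.symm (Point.some_ne_zero h)
  rcases Q' with _ | ⟨X', Y', hXY'⟩
  · change (vcPoint W C) 0 = _ at hQ'
    rw [vcPoint_zero] at hQ'; exact absurd hQ'.symm (Point.some_ne_zero h')
  have hQc := hQ
  have hQc' := hQ'
  rw [vcPoint_some, Point.some.injEq] at hQc hQc'
  obtain ⟨eX, eY⟩ := hQc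
  obtain ⟨eX', eY'⟩ := hQc'
  have hN : IntegralCoeffs (C • W).toAffine v := by rw [hCW]; exact nodeCurve_integral ha
  have hXv : v X ≤ 1 := (val_vcX_le hu hr).mp (by rw [eX]; exact hx)
  have hXv' : v X' ≤ 1 := (val_vcX_le hu hr).mp (by rw [eX']; exact hx')
  have hr1 : rad (C • W) v X Y = rad W v x y := by rw [← rad_vc hu hs, eX, eY]
  have hr1' : rad (C • W) v X' Y' = rad W v x' y' := by rw [← rad_vc hu hs, eX', eY']
  have key := node_sub_or_add_inE0 hCW ha0 ha hXY hXY' hXv hXv' (by rw [hr1]; exact hrad)
    (by rw [hr1, hr1', heq])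
  rcases key with key | key
  · left
    have := inE0_vcPoint hu hr hs hN _ key
    rwa [map_sub, hQ, hQ'] at this
  · right
    have := inE0_vcPoint hu hr hs hN _ key
    rwa [map_add, hQ, hQ'] at this

end Fermat.Agent.S59.H396
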