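import Fermat.Agent.S59.H396.OrdGalois
import Fermat.Agent.S59.H396.OrdAbstract
import Fermat.Agent.S59.H899.ZModel
import Fermat.Agent.S05.Sq12.Inertia

/-!
# CR-O, part C4 (helper396): the torsion-level input `OrdDataAt` for an integral model with
multiplicative reduction at `p`

`W : WeierstrassCurve ℤ`, `p` an odd prime with `p ∣ Δ`, `p ∤ c₄`, `Δ ≠ 0`, and `A` a place of `ℚ̄`
over `p`.  The kernel of reduction `kerRed W A ≤ E(ℚ̄)` satisfies `OrdDataAt p E(ℚ̄) A`
(`ordDataAt_of_mult`):
* `#(E₁ ∩ E[p^n]) = p^n`                                      (`TorsionCount.ncard_torsion_inKer`);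
* the decomposition group of `A` stabilises `E₁`              (`OrdGalois.inKer_smul`);
* inertia acts trivially on `E[p^∞]/E₁[p^∞]`                  (`OrdGalois.inKer_smul_sub`);
* the decomposition group acts by a sign on `E[p^∞]/E₁[p^∞]`  (`OrdGalois.exists_sign`).
-/

set_option autoImplicit false
set_option linter.unusedSectionVars false
set_option linter.unusedVariables false
set_option linter.style.haveILetI false

namespace Fermat.Agent.S59.H396

open WeierstrassCurve WeierstrassCurve.Affine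
open scoped WeierstrassCurve.Affine
open Fermat.Agent.S05.SameRed (IntegralCoeffs InKer)
open Fermat.Agent.S05
open Fermat.Agent.S59.H899
open Fermat.Agent.S59.H360
open Fermat.Agent.Lib.Red.H290 (inKer_add inKer_neg inKer_sub)

section model

variable (W : WeierstrassCurve ℤ) (A : ValuationSubring QbarH)

/-- the integral model over the valuation ring `A` -/
noncomputable def modelAt : WeierstrassCurve A := W.map (Int.castRingHom A)

lemma curveQbar_eq_curveK : curveQbar W = curveK A (modelAt W A) := by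
  rw [curveQbar_eq_map, curveK, modelAt, WeierstrassCurve.map_map]
  congr 1

lemma modelAt_Δ : ((modelAt W A).Δ : QbarH) = ((W.Δ : ℤ) : QbarH) := by
  rw [modelAt, WeierstrassCurve.map_Δ]
  simp

lemma modelAt_c₄ : ((modelAt W A).c₄ : QbarH) = ((W.c₄ : ℤ) : QbarH) := by
  rw [modelAt, WeierstrassCurve.map_c₄]
  simp

/-- the curve over `ℚ̄` is elliptic -/
lemma isElliptic_curveQbar (hΔ : W.Δ ≠ 0) : (curveQbar W).IsElliptic := by
  refine ⟨?_⟩
  rw [isUnit_iff_ne_zero, curveQbar_Δ]
  exact_mod_cast hΔ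

/-- the kernel of reduction at the place `A`, as a subgroup of `E(ℚ̄)` -/
def kerRed : AddSubgroup (curveQbar W).Point where
  carrier := {T | InKer (curveQbar W) A.valuation T}
  zero_mem' := (SameRed.inKer_zero : InKer (curveQbar W) A.valuation 0)
  add_mem' := fun ha hb => inKer_add (integralCoeffs W A) ha hb
  neg_mem' := fun ha => inKer_neg ha

lemma mem_kerRed {T : (curveQbar W).Point} :
    T ∈ kerRed W A ↔ InKer (curveQbar W) A.valuation T := Iff.rfl

variable {W A}

/-- the torsion data at a place over a prime of multiplicative reduction -/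
theorem multTorsion_curveQbar {p : ℕ} [hp : Fact p.Prime] (hp2 : p ≠ 2) (hΔ : W.Δ ≠ 0)
    (hbad : (p : ℤ) ∣ W.Δ) (hc₄ : ¬ (p : ℤ) ∣ W.c₄) (hA : A.LiesOverPrime p) :
    MultTorsion (curveQbar W) A.valuation p := by
  haveI := isElliptic_curveQbar W hΔ
  have hpV : (p : A) ∈ IsLocalRing.maximalIdeal A := by
    rw [ValuationSubring.valuation_lt_one_iff]
    have : A.valuation ((p : ℤ) : QbarH) < 1 := val_intCast_lt_one hA (dvd_refl _)
    simpa using this
  have hΔ' : (modelAt W A).Δ ∈ IsLocalRing.maximalIdeal A := by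
    rw [ValuationSubring.valuation_lt_one_iff, modelAt_Δ]
    exact val_intCast_lt_one hA hbad
  have hc4' : (modelAt W A).c₄ ∉ IsLocalRing.maximalIdeal A := by
    rw [ValuationSubring.valuation_lt_one_iff, modelAt_c₄,
      val_intCast_eq_one hA hp.out hc₄]
    exact lt_irrefl _
  exact multTorsion_of_eq A (modelAt W A) p hp2 hpV hΔ' hc4' (curveQbar_eq_curveK W A)

/-- `#(E₁ ∩ E[p^n]) = p^n` -/
theorem lineCard_kerRed {p : ℕ} [hp : Fact p.Prime]
    (hMT : MultTorsion (curveQbar W) A.valuation p) : LineCard p (kerRed W A) := by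
  intro n
  have h1 : ((kerRed W A ⊓ tors p (curveQbar W).Point n : AddSubgroup (curveQbar W).Point) :
      Set (curveQbar W).Point) =
      {T : (curveQbar W).Point | p ^ n • T = 0 ∧ InKer (curveQbar W) A.valuation T} := by
    ext T
    simp only [SetLike.mem_coe, AddSubgroup.mem_inf, mem_tors, mem_kerRed, Set.mem_ofPred_eq]
    exact and_comm
  have h2 : Nat.card ↥(kerRed W A ⊓ tors p (curveQbar W).Point n) = Set.ncard
      ((kerRed W A ⊓ tors p (curveQbar W).Point n : AddSubgroup (curveQbar W).Point) :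
        Set (curveQbar W).Point) := Nat.card_coe_set_eq _
  rw [h2, h1, hMT.card n]

/-- **`OrdDataAt` at a place over a prime of multiplicative reduction.** -/
theorem ordDataAt_of_mult {p : ℕ} [hp : Fact p.Prime] (hp2 : p ≠ 2) (hΔ : W.Δ ≠ 0)
    (hbad : (p : ℤ) ∣ W.Δ) (hc₄ : ¬ (p : ℤ) ∣ W.c₄) (hA : A.LiesOverPrime p) :
    OrdDataAt p (curveQbar W).Point A := by
  have hMT := multTorsion_curveQbar hp2 hΔ hbad hc₄ hA
  have hW := integralCoeffs W A
  have hc : A.valuation (curveQbar W).c₄ = 1 := by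
    rw [curveQbar_c₄]
    exact val_intCast_eq_one hA hp.out hc₄
  have hΔ' : (curveQbar W).Δ ≠ 0 := by
    rw [curveQbar_Δ]
    exact_mod_cast hΔ
  have hval : ∀ σ ∈ A.decompositionSubgroup ℚ, ∀ t : QbarH, A.valuation (σ t) = A.valuation t :=
    fun σ hσ t => Sq12.valuation_apply_eq_of_mem_decomp A hσ
      (Sq12.isAlgebraic_algebraicClosure_rat t)
  refine ⟨kerRed W A, lineCard_kerRed hMT, ?_, ?_, ?_⟩
  · intro σ hσ x hx
    exact inKer_smul (W' := (W.map (Int.castRingHom ℚ)).toAffine) (S := ℚ) σ (hval σ hσ) hx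
  · intro σ hσ n x hx
    have hσD := Sq12.mem_decomp_of_mem_inertiaIn A hσ
    exact inKer_smul_sub (W' := (W.map (Int.castRingHom ℚ)).toAffine) (S := ℚ)
      two_ne_zero hW hc hΔ' hMT σ (fun t ht => inertia_val_sub_lt_one hσ t ht)
      (hval σ hσD) n x hx
  · intro σ hσ
    exact exists_sign (W' := (W.map (Int.castRingHom ℚ)).toAffine) (S := ℚ)
      two_ne_zero hW hc hΔ' hMT σ (hval σ hσ)

end model

end Fermat.Agent.S59.H396
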