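import Fermat.Agent.S59.H396.OrdData
import Fermat.Agent.S59.H127.Bridge360

/-!
# CR-O, adapter (helper396): the open input `H127.OrdDataInput` is a theorem

* `ordDataInput  : H127.OrdDataInput`   (from `ordDataAt_of_mult`);
* `ordFinalInput : H127.OrdFinalInput`;
* `curveRepStatement_of_flat : H127.FlatFinalInput → Arch.CurveRepStatement` — layer E of S59 with
  the flat input as its only remaining hypothesis.
-/

set_option autoImplicit false

namespace Fermat.Agent.S59.H396

/-- **CR-ORD, torsion-level form.** -/
theorem ordDataInput : Fermat.Agent.S59.H127.OrdDataInput := by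
  intro p hp hp2 W hΔ hW hbad P hP
  exact ordDataAt_of_mult hp2 hΔ (not_not.mp hbad) (hW p hp.out (not_not.mp hbad)) hP

/-- **CR-ORD, final form.** -/
theorem ordFinalInput : Fermat.Agent.S59.H127.OrdFinalInput :=
  Fermat.Agent.S59.H127.ordFinalInput_of_ordData ordDataInput

/-- **Layer E of S59 from the flat input alone.** -/
theorem curveRepStatement_of_flat (hflat : Fermat.Agent.S59.H127.FlatFinalInput) :
    Fermat.Agent.S59.Arch.CurveRepStatement :=
  Fermat.Agent.S59.H127.curveRepStatement_of_ordData hflat ordDataInput

end Fermat.Agent.S59.H396
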