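import Fermat.Agent.S59.H396.OrdGeom

/-!
# CR-O, part C3 (helper396): the Galois action on the `p`-power torsion at a prime of
multiplicative reduction `p` (abstract setting of `H240.Unip`)

`σ : K ≃ₐ[S] K` preserving the valuation `v`, `E = W'⁄K` with integral coefficients, `v c₄ = 1`,
`Δ ≠ 0` and the torsion data `MultTorsion E v p`:
* `inKer_smul`            : `σ E₁ ⊆ E₁`;
* `inKer_of_inE0`         : `E₀ ∩ E[p^j] ⊆ E₁`;
* `inKer_smul_sub`        : `σ P - P ∈ E₁` for `P ∈ E[p^j]` if `σ` acts trivially on the residue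
                            field (inertia);
* `inKer_smul_sub_or_add` : `σ P - P ∈ E₁` or `σ P + P ∈ E₁` for `P ∈ E[p^j]` (decomposition group);
* `exists_sign`           : there is `z = ±1` with `σ P - z P ∈ E₁` for ALL `P ∈ E[p^∞]`.
-/

set_option autoImplicit false
set_option linter.unusedSectionVars false
set_option linter.unusedVariables false
set_option linter.style.haveILetI false

namespace Fermat.Agent.S59.H396

open WeierstrassCurve WeierstrassCurve.Affine
open Fermat.Agent.S05.SameRed (IntegralCoeffs InKer)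
open Fermat.Agent.S05
open Fermat.Agent.S59.H240
open Fermat.Agent.Lib.Red.H290 (inKer_add inKer_neg inKer_sub)

section galois

variable {R S K : Type*} [CommRing R] [CommRing S] [Field K] [DecidableEq K]
  [Algebra R S] [Algebra R K] [Algebra S K] [IsScalarTower R S K]
  {Γ₀ : Type*} [LinearOrderedCommGroupWithZero Γ₀]
  {W' : Affine R} {v : Valuation K Γ₀}

/-- the Galois action commutes with multiplication by `n` -/
lemma smul_nsmul_point (σ : K ≃ₐ[S] K) (n : ℕ) (P : (W'⁄K).Point) :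
    σ • (n • P) = n • (σ • P) :=
  map_nsmul (DistribSMul.toAddMonoidHom (W'⁄K).Point σ) n P

/-- `σ E₁ ⊆ E₁` -/
lemma inKer_smul (σ : K ≃ₐ[S] K) (hσv : ∀ t : K, v (σ t) = v t) {T : (W'⁄K).Point}
    (hT : InKer (W'⁄K) v T) : InKer (W'⁄K) v (σ • T) := by
  rcases T with _ | ⟨x, y, h⟩
  · have e : σ • (Point.zero : (W'⁄K).Point) = 0 := by
      change σ • (0 : (W'⁄K).Point) = 0
      rw [smul_zero]
    rw [e]
    exact SameRed.inKer_zero
  · rw [GoodRed.smul_some]
    exact (SameRed.inKer_some _).mpr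
      (((SameRed.inKer_some h).mp hT).trans_eq (hσv x).symm)

variable {p : ℕ}

/-- `E₀ ∩ E[p^j] ⊆ E₁` -/
lemma inKer_of_inE0 (hMT : MultTorsion (W'⁄K) v p) {Q : (W'⁄K).Point}
    (hQ0 : InE0 (W'⁄K) v Q) (j : ℕ) (hQ : p ^ j • Q = 0) : InKer (W'⁄K) v Q := by
  rcases Q with _ | ⟨x, y, h⟩
  · exact SameRed.inKer_zero
  · rw [SameRed.inKer_some]
    by_contra hx
    rw [not_lt] at hx
    have hrad := hMT.rad j h hQ hx
    rw [inE0_some] at hQ0
    rcases hQ0 with h1 | h1 | h1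
    · exact absurd hx (not_le.mpr h1)
    · have : (1 : Γ₀) ≤ rad (W'⁄K) v x y := by rw [rad, ← h1]; exact le_max_left _ _
      exact absurd hrad (not_lt.mpr this)
    · have : (1 : Γ₀) ≤ rad (W'⁄K) v x y := by rw [rad, ← h1]; exact le_max_right _ _
      exact absurd hrad (not_lt.mpr this)

lemma nsmul_smul_sub (σ : K ≃ₐ[S] K) (j : ℕ) (P : (W'⁄K).Point) (hP : p ^ j • P = 0) :
    p ^ j • (σ • P - P) = 0 := by
  rw [nsmul_sub, ← smul_nsmul_point, hP, smul_zero, sub_zero]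

lemma nsmul_smul_add (σ : K ≃ₐ[S] K) (j : ℕ) (P : (W'⁄K).Point) (hP : p ^ j • P = 0) :
    p ^ j • (σ • P + P) = 0 := by
  rw [nsmul_add, ← smul_nsmul_point, hP, smul_zero, add_zero]

/-- **Decomposition group, pointwise.** -/
theorem inKer_smul_sub_or_add [IsAlgClosed K] (h2 : (2 : K) ≠ 0)
    (hW : IntegralCoeffs (W'⁄K) v) (hc₄ : v (W'⁄K).c₄ = 1) (hΔ : (W'⁄K).Δ ≠ 0)
    (hMT : MultTorsion (W'⁄K) v p)
    (σ : K ≃ₐ[S] K) (hσv : ∀ t : K, v (σ t) = v t)
    (j : ℕ) (P : (W'⁄K).Point) (hP : p ^ j • P = 0) :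
    InKer (W'⁄K) v (σ • P - P) ∨ InKer (W'⁄K) v (σ • P + P) := by
  by_cases hker : InKer (W'⁄K) v P
  · exact Or.inl (inKer_sub hW (inKer_smul σ hσv hker) hker)
  rcases P with _ | ⟨x, y, h⟩
  · exact absurd SameRed.inKer_zero hker
  · rw [SameRed.inKer_some, not_lt] at hker
    have hy : v y ≤ 1 := GoodRed.val_y_le_one hW h.1 hker
    have hrad := hMT.rad j h hP hker
    have key : InE0 (W'⁄K) v (σ • Point.some x y h - Point.some x y h) ∨
        InE0 (W'⁄K) v (σ • Point.some x y h + Point.some x y h) :=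
      sub_or_add_inE0 h2 hW hc₄ hΔ h
        ((W'.baseChange_nonsingular σ.toAlgHom.injective x y).mpr h) hker hy
        ((hσv x).le.trans hker) hrad (rad_apply σ hσv x y)
    rcases key with key | key
    · exact Or.inl (inKer_of_inE0 hMT key j (nsmul_smul_sub σ j _ hP))
    · exact Or.inr (inKer_of_inE0 hMT key j (nsmul_smul_add σ j _ hP))

/-- **Inertia.** -/
theorem inKer_smul_sub [IsAlgClosed K] (h2 : (2 : K) ≠ 0)
    (hW : IntegralCoeffs (W'⁄K) v) (hc₄ : v (W'⁄K).c₄ = 1) (hΔ : (W'⁄K).Δ ≠ 0)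
    (hMT : MultTorsion (W'⁄K) v p)
    (σ : K ≃ₐ[S] K) (hσ : ∀ t : K, v t ≤ 1 → v (σ t - t) < 1) (hσv : ∀ t : K, v (σ t) = v t)
    (j : ℕ) (P : (W'⁄K).Point) (hP : p ^ j • P = 0) :
    InKer (W'⁄K) v (σ • P - P) := by
  by_cases hker : InKer (W'⁄K) v P
  · exact inKer_sub hW (inKer_smul σ hσv hker) hker
  rcases P with _ | ⟨x, y, h⟩
  · exact absurd SameRed.inKer_zero hker
  · rw [SameRed.inKer_some, not_lt] at hker
    have hy : v y ≤ 1 := GoodRed.val_y_le_one hW h.1 hker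
    have hrad := hMT.rad j h hP hker
    have key : InE0 (W'⁄K) v (σ • Point.some x y h - Point.some x y h) := by
      rw [GoodRed.smul_some]
      refine sub_inE0 h2 hW hc₄ hΔ h _ hker hy (by rw [hσv]; exact hker) hrad
        (rad_apply σ hσv x y) ?_
      rw [← apply_gX, ← apply_gY]
      refine val_cross_lt σ hσ hσv ?_
      -- the point is nonsingular
      have hns := (Affine.nonsingular_iff' x y).mp h
      by_contra hcon
      rw [not_or, not_not, not_not] at hcon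
      rcases hns.2 with h1 | h1
      · apply h1
        have := hcon.1
        unfold gX at this
        linear_combination this
      · apply h1
        have := hcon.2
        unfold gY at this
        linear_combination this
    exact inKer_of_inE0 hMT key j (nsmul_smul_sub σ j _ hP)

/-- **Decomposition group: the sign is uniform.** -/
theorem exists_sign [IsAlgClosed K] (h2 : (2 : K) ≠ 0)
    (hW : IntegralCoeffs (W'⁄K) v) (hc₄ : v (W'⁄K).c₄ = 1) (hΔ : (W'⁄K).Δ ≠ 0)
    (hMT : MultTorsion (W'⁄K) v p)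
    (σ : K ≃ₐ[S] K) (hσv : ∀ t : K, v (σ t) = v t) :
    ∃ z : ℤ, (z = 1 ∨ z = -1) ∧
      ∀ (n : ℕ) (P : (W'⁄K).Point), p ^ n • P = 0 → InKer (W'⁄K) v (σ • P - z • P) := by
  by_cases hplus : ∀ (n : ℕ) (P : (W'⁄K).Point), p ^ n • P = 0 → InKer (W'⁄K) v (σ • P - P)
  · exact ⟨1, Or.inl rfl, fun n P hP => by rw [one_zsmul]; exact hplus n P hP⟩
  by_cases hminus : ∀ (n : ℕ) (P : (W'⁄K).Point), p ^ n • P = 0 → InKer (W'⁄K) v (σ • P + P)
  · exact ⟨-1, Or.inr rfl, fun n P hP => by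
      rw [neg_zsmul, one_zsmul, sub_neg_eq_add]; exact hminus n P hP⟩
  exfalso
  push Not at hplus hminus
  obtain ⟨n, a, ha, ha'⟩ := hplus
  obtain ⟨m, b, hb, hb'⟩ := hminus
  -- `a ∈ S₋ ∖ S₊`, `b ∈ S₊ ∖ S₋`
  have haM : InKer (W'⁄K) v (σ • a + a) :=
    (inKer_smul_sub_or_add h2 hW hc₄ hΔ hMT σ hσv n a ha).resolve_left ha'
  have hbP : InKer (W'⁄K) v (σ • b - b) :=
    (inKer_smul_sub_or_add h2 hW hc₄ hΔ hMT σ hσv m b hb).resolve_right hb'
  have hab : p ^ (n + m) • (a + b) = 0 := by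
    have e1 : p ^ (n + m) • a = 0 := by
      rw [pow_add, mul_nsmul, ha, smul_zero]
    have e2 : p ^ (n + m) • b = 0 := by
      rw [pow_add, mul_comm, mul_nsmul, hb, smul_zero]
    rw [nsmul_add, e1, e2, add_zero]
  rcases inKer_smul_sub_or_add h2 hW hc₄ hΔ hMT σ hσv (n + m) (a + b) hab with h1 | h1
  · -- `a + b ∈ S₊`, `b ∈ S₊` ⟹ `a ∈ S₊`
    apply ha'
    have := inKer_sub hW h1 hbP
    have e : σ • (a + b) - (a + b) - (σ • b - b) = σ • a - a := by
      rw [smul_add]; abel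
    rwa [e] at this
  · -- `a + b ∈ S₋`, `a ∈ S₋` ⟹ `b ∈ S₋`
    apply hb'
    have := inKer_sub hW h1 haM
    have e : σ • (a + b) + (a + b) - (σ • a + a) = σ • b + b := by
      rw [smul_add]; abel
    rwa [e] at this

end galois

end Fermat.Agent.S59.H396
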