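import Fermat.Agent.S59.H396.NodeSign
import Fermat.Agent.S59.H396.TorsionCount
import Fermat.Agent.S59.H240.Unip
import Fermat.Agent.Lib.Red.H290.RedKer

/-!
# CR-O, part C2 (helper396): the decomposition group at a prime of multiplicative reduction `p`
acts on `E[p^∞] / E₁[p^∞]` by a sign

## Torsion data (`MultTorsion`)
For a Weierstrass curve `E` over an algebraically closed valued field and a prime `p`:
* `card` : `#(E[p^j] ∩ E₁) = p^j` for all `j`  (`E₁` = kernel of reduction);
* `rad`  : every point of `E[p^j]` with integral `x` has singular reduction (`rad < 1`).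
`multTorsion_curveK` : this holds for `E = W₀ ⊗ K`, `W₀` over a valuation subring `V` of residue
characteristic `p ≠ 2`, `Δ ∈ 𝔪`, `c₄ ∈ Vˣ`  (from `TorsionCount`).

## Galois action (abstract setting of `H240.Unip`)
`σ : K ≃ₐ[S] K` preserving the valuation, `E = W'⁄K` with `MultTorsion`:
* `inKer_smul`            : `σ E₁ = E₁`;
* `inKer_of_inE0`         : `E₀ ∩ E[p^j] ⊆ E₁`;
* `inKer_smul_sub`        : `σ P - P ∈ E₁` for `P ∈ E[p^j]` if `σ` acts trivially on the residue
                            field;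
* `inKer_smul_sub_or_add` : `σ P - P ∈ E₁` or `σ P + P ∈ E₁` for `P ∈ E[p^j]`;
* `exists_sign`           : there is `z = ±1` with `σ P - z P ∈ E₁` for ALL `P ∈ E[p^∞]`.
-/

set_option autoImplicit false
set_option linter.unusedSectionVars false
set_option linter.unusedVariables false
set_option linter.style.haveILetI false

namespace Fermat.Agent.S59.H396

open WeierstrassCurve WeierstrassCurve.Affine
open Fermat.Agent.S05.SameRed (IntegralCoeffs InKer)
open Fermat.Agent.S05
open Fermat.Agent.S59.H240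
open Fermat.Agent.S51.Five (xc xc_some)

section data

variable {K : Type*} [Field K] [DecidableEq K] {Γ₀ : Type*} [LinearOrderedCommGroupWithZero Γ₀]

/-- the torsion data at a prime of multiplicative reduction -/
structure MultTorsion (E : WeierstrassCurve.Affine K) (v : Valuation K Γ₀) (p : ℕ) : Prop where
  card : ∀ j : ℕ, Set.ncard {T : E.Point | p ^ j • T = 0 ∧ InKer E v T} = p ^ j
  rad : ∀ (j : ℕ) {x y : K} (h : E.Nonsingular x y), p ^ j • Point.some x y h = 0 → v x ≤ 1 →
    rad E v x y < 1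

end data

section curveK

variable {K : Type*} [Field K] [DecidableEq K]
  (V : ValuationSubring K) (W₀ : WeierstrassCurve V)

lemma integralCoeffs_curveK : IntegralCoeffs (curveK V W₀) V.valuation :=
  ⟨by rw [curveK, WeierstrassCurve.map_a₁]; exact V.valuation_le_one _,
   by rw [curveK, WeierstrassCurve.map_a₂]; exact V.valuation_le_one _,
   by rw [curveK, WeierstrassCurve.map_a₃]; exact V.valuation_le_one _,
   by rw [curveK, WeierstrassCurve.map_a₄]; exact V.valuation_le_one _,
   by rw [curveK, WeierstrassCurve.map_a₆]; exact V.valuation_le_one _⟩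

lemma val_lt_one_of_residue_eq_zero (t : V) (ht : IsLocalRing.residue V t = 0) :
    V.valuation (t : K) < 1 :=
  (V.valuation_lt_one_iff t).mp ((IsLocalRing.residue_eq_zero_iff t).mp ht)

variable [IsAlgClosed K] [CharZero K] [hE : (curveK V W₀).IsElliptic]
variable (p : ℕ) [hp : Fact p.Prime]
variable (hp2 : p ≠ 2) (hpV : (p : V) ∈ IsLocalRing.maximalIdeal V)
  (hΔ : W₀.Δ ∈ IsLocalRing.maximalIdeal V) (hc4 : W₀.c₄ ∉ IsLocalRing.maximalIdeal V)

include hp hp2 hpV hΔ hc4

/-- **Integral `p`-power torsion points have singular reduction.** -/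
theorem rad_lt_one_of_torsion (j : ℕ) {x y : K} (h : (curveK V W₀).Nonsingular x y)
    (hT : p ^ j • Point.some x y h = 0) (hx : V.valuation x ≤ 1) :
    rad (curveK V W₀) V.valuation x y < 1 := by
  have hW := integralCoeffs_curveK V W₀
  have hy : V.valuation y ≤ 1 := GoodRed.val_y_le_one hW h.1 hx
  have hxV : x ∈ V := (V.valuation_le_one_iff x).mp hx
  have hyV : y ∈ V := (V.valuation_le_one_iff y).mp hy
  -- the residues
  set X : V := ⟨x, hxV⟩ with hXdef
  set Y : V := ⟨y, hyV⟩ with hYdef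
  set r := IsLocalRing.residue V with hr
  have h2k : (2 : IsLocalRing.ResidueField V) ≠ 0 := two_ne_zero_residue V p hp2 hpV
  -- the equation over `V`
  have hEqV : Y ^ 2 + W₀.a₁ * X * Y + W₀.a₃ * Y = X ^ 3 + W₀.a₂ * X ^ 2 + W₀.a₄ * X + W₀.a₆ := by
    apply Subtype.ext
    have := (Affine.equation_iff x y).mp h.1
    simp only [curveK, WeierstrassCurve.map_a₁, WeierstrassCurve.map_a₂, WeierstrassCurve.map_a₃,
      WeierstrassCurve.map_a₄, WeierstrassCurve.map_a₆] at this
    push_cast
    exact this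
  have hEqk := congrArg r hEqV
  simp only [map_add, map_mul, map_pow] at hEqk
  -- the node
  have hnode : r X = nodeX (curveRes V W₀) :=
    residue_xc_of_torsion V W₀ p hp2 hpV hΔ hc4 j _ hT (Point.some_ne_zero h)
      (by rw [xc_some]; exact hxV)
  have hΔk : (curveRes V W₀).Δ = 0 := by
    rw [curveRes, WeierstrassCurve.map_Δ]
    exact (IsLocalRing.residue_eq_zero_iff _).mpr hΔ
  have hc4k : (curveRes V W₀).c₄ ≠ 0 := by
    rw [curveRes, WeierstrassCurve.map_c₄]
    exact fun h0 => hc4 ((IsLocalRing.residue_eq_zero_iff _).mp h0)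
  obtain ⟨-, hb2, hb4, hb6, -⟩ := nodal_params (curveRes V W₀) h2k hΔk hc4k
  simp only [curveRes, WeierstrassCurve.b₂, WeierstrassCurve.b₄, WeierstrassCurve.b₆,
    WeierstrassCurve.map_a₁, WeierstrassCurve.map_a₂, WeierstrassCurve.map_a₃,
    WeierstrassCurve.map_a₄, WeierstrassCurve.map_a₆] at hb2 hb4 hb6
  rw [← hr] at hb2 hb4 hb6
  generalize nodeA (curveRes V W₀) = A at hb2 hb4 hb6
  rw [← hnode] at hb2 hb4 hb6
  -- `gY` reduces to zero
  have hgY : r (2 * Y + W₀.a₁ * X + W₀.a₃) = 0 := by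
    have hsq : r (2 * Y + W₀.a₁ * X + W₀.a₃) ^ 2 = 0 := by
      simp only [map_add, map_mul, map_ofNat]
      linear_combination 4 * hEqk + (r X) ^ 2 * hb2 + 2 * r X * hb4 + hb6
    exact pow_eq_zero_iff (two_ne_zero) |>.mp hsq
  -- `gX` reduces to zero
  have hgX : r (W₀.a₁ * Y - (3 * X ^ 2 + 2 * W₀.a₂ * X + W₀.a₄)) = 0 := by
    have h4 : (4 : IsLocalRing.ResidueField V) ≠ 0 := by
      have : (4 : IsLocalRing.ResidueField V) = 2 * 2 := by norm_num
      rw [this]; exact mul_ne_zero h2k h2k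
    have h4z : 4 * r (W₀.a₁ * Y - (3 * X ^ 2 + 2 * W₀.a₂ * X + W₀.a₄)) = 0 := by
      simp only [map_add, map_mul, map_ofNat, map_sub, map_pow] at hgY ⊢
      linear_combination 2 * r W₀.a₁ * hgY - 2 * r X * hb2 - 2 * hb4
    exact (mul_eq_zero.mp h4z).resolve_left h4
  have e1 : gX (curveK V W₀) x y
      = ((W₀.a₁ * Y - (3 * X ^ 2 + 2 * W₀.a₂ * X + W₀.a₄) : V) : K) := by
    simp only [gX, curveK, WeierstrassCurve.map_a₁, WeierstrassCurve.map_a₂,
      WeierstrassCurve.map_a₄]
    push_cast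
    rfl
  have e2 : gY (curveK V W₀) x y = ((2 * Y + W₀.a₁ * X + W₀.a₃ : V) : K) := by
    simp only [gY, curveK, WeierstrassCurve.map_a₁, WeierstrassCurve.map_a₃]
    push_cast
    rfl
  rw [rad, e1, e2]
  exact max_lt (val_lt_one_of_residue_eq_zero V _ hgX) (val_lt_one_of_residue_eq_zero V _ hgY)

/-- the torsion data of `W₀ ⊗ K` -/
theorem multTorsion_curveK : MultTorsion (curveK V W₀) V.valuation p :=
  ⟨fun j => ncard_torsion_inKer V W₀ p hp2 hpV hΔ hc4 j,
   fun j _ _ h hT hx => rad_lt_one_of_torsion V W₀ p hp2 hpV hΔ hc4 j h hT hx⟩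

omit hE in
/-- the same for a curve which is equal to `W₀ ⊗ K` -/
theorem multTorsion_of_eq {E : WeierstrassCurve.Affine K} [hE' : E.IsElliptic]
    (hEq : E = curveK V W₀) : MultTorsion E V.valuation p := by
  subst hEq
  exact multTorsion_curveK V W₀ p hp2 hpV hΔ hc4

end curveK

end Fermat.Agent.S59.H396
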